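import Fermat.Agent.R.Defs

/-!
# S30 wiring: interfaces (owner helper29; cluster R)

`S30` (an eigensystem `χ : 𝕋 → 𝒪'` of the weight-2 Hecke algebra has a 2-dimensional Galois
representation with the right Frobenius characteristic polynomials) is derived from

* `Stmt_TatePiece` (interface to cluster G): a NONZERO free module of ANY finite rank with a
  continuous Galois action, unramified outside `N p`, on which every Frobenius lift at a good
  prime `ℓ` satisfies the Eichler–Shimura relation `F² - χ(T_ℓ) F + ℓ = 0`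
  (the `χ`-eigenspace of the Tate module of `J₀(N)`), and
* `Fermat.Agent.R.Stmt_FD` (Frobenius density, shared item 61),

by pure algebra (no Weil pairing, no multiplicity one, no full Hecke algebra):

* A `Stmt_CycChar`   : the `p`-adic cyclotomic character with values in `𝒪`.
* B `Stmt_Step0`     : every `g` satisfies `g² - a(g) g + ε(g) = 0`.
* C `Stmt_SmallPiece`: a stable subspace of dimension `1` or `2` over a finite extension.
* D `Stmt_LemmaB`    : in rank 2, `det = ε` or everything is scalar.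
* E `Stmt_Lattice`   : saturated lattices are direct summands (intertwining matrices `P`, `Q`).
* F `Stmt_CharSum`   : `ψ ⊕ ε ψ⁻¹`.

Everything is phrased with matrices `Matrix (Fin r) (Fin r) R`, so that base change is
`Matrix.map`.
-/

set_option autoImplicit false

open Polynomial

namespace Fermat.Agent.S30

/-- The absolute Galois group of `ℚ`. -/
abbrev GQ : Type := AlgebraicClosure ℚ ≃ₐ[ℚ] AlgebraicClosure ℚ

section Notions

variable {R : Type} [CommRing R] {r : ℕ}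

/-- Adic continuity of a matrix representation over a local ring. -/
def MatAdicCont [IsLocalRing R] (ρ : GQ →* Matrix (Fin r) (Fin r) R) : Prop :=
  ∀ n : ℕ, ∃ L : IntermediateField ℚ (AlgebraicClosure ℚ), FiniteDimensional ℚ L ∧
    ∀ σ : GQ, (∀ x ∈ L, σ x = x) → ∀ i j, (ρ σ - 1) i j ∈ IsLocalRing.maximalIdeal R ^ n

/-- Adic continuity of a character. -/
def CharAdicCont [IsLocalRing R] (ε : GQ →* Rˣ) : Prop :=
  ∀ n : ℕ, ∃ L : IntermediateField ℚ (AlgebraicClosure ℚ), FiniteDimensional ℚ L ∧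
    ∀ σ : GQ, (∀ x ∈ L, σ x = x) → ((ε σ : R) - 1) ∈ IsLocalRing.maximalIdeal R ^ n

/-- A matrix representation is unramified at `q`. -/
def MatUnramAt (ρ : GQ →* Matrix (Fin r) (Fin r) R) (q : ℕ) : Prop :=
  ∀ P : ValuationSubring (AlgebraicClosure ℚ), P.LiesOverPrime q →
    ∀ σ ∈ P.inertiaSubgroupIn ℚ, ρ σ = 1

/-- A character is unramified at `q`. -/
def CharUnramAt (ε : GQ →* Rˣ) (q : ℕ) : Prop :=
  ∀ P : ValuationSubring (AlgebraicClosure ℚ), P.LiesOverPrime q →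
    ∀ σ ∈ P.inertiaSubgroupIn ℚ, ε σ = 1

/-- The Eichler–Shimura relation `F² - a_ℓ F + ℓ = 0` for all Frobenius lifts `F` at the primes
`ℓ ∉ S`. -/
def MatES (ρ : GQ →* Matrix (Fin r) (Fin r) R) (a : ℕ → R) (S : Finset ℕ) : Prop :=
  ∀ ℓ : ℕ, ℓ.Prime → ℓ ∉ S → ∀ A : ValuationSubring (AlgebraicClosure ℚ), A.LiesOverPrime ℓ →
    ∀ σ : GQ, A.IsFrobeniusAt σ ℓ → ρ σ * ρ σ - a ℓ • ρ σ + (ℓ : R) • (1 : Matrix _ _ R) = 0

/-- `ε` is "cyclotomic away from `S`": `ε(F) = ℓ` for the Frobenius lifts at the primes `ℓ ∉ S`. -/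
def CharCycAt (ε : GQ →* Rˣ) (S : Finset ℕ) : Prop :=
  ∀ ℓ : ℕ, ℓ.Prime → ℓ ∉ S → ∀ A : ValuationSubring (AlgebraicClosure ℚ), A.LiesOverPrime ℓ →
    ∀ σ : GQ, A.IsFrobeniusAt σ ℓ → (ε σ : R) = (ℓ : R)

/-- Every group element satisfies a monic quadratic with constant term `ε g`. -/
def QuadAll {G : Type} [Group G] (ρ : G →* Matrix (Fin r) (Fin r) R) (ε : G →* Rˣ) : Prop :=
  ∀ g : G, ∃ a : R, ρ g * ρ g - a • ρ g + (ε g : R) • (1 : Matrix _ _ R) = 0

end Notions

/-- **Interface to cluster G.** For every eigensystem `χ` there is a nonzero Eichler–Shimura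
piece: a continuous matrix representation of some rank `r > 0` over `𝒪'`, unramified outside
`N p`, satisfying the Eichler–Shimura relation with `a_ℓ = χ(T_ℓ)`. -/
def Stmt_TatePiece : Prop :=
  ∀ (p : ℕ) [Fact p.Prime] (N : ℕ) [NeZero N] (S : Finset ℕ)
    (_hpS : p ∈ S) (_hNS : ∀ q : ℕ, q.Prime → q ∣ N → q ∈ S)
    (𝒪' : Type) [CommRing 𝒪'] [IsDomain 𝒪'] [IsDiscreteValuationRing 𝒪']
    [IsAdicComplete (IsLocalRing.maximalIdeal 𝒪') 𝒪'] [Finite (IsLocalRing.ResidueField 𝒪')]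
    [CharZero 𝒪'] (_hp𝒪' : (p : 𝒪') ∈ IsLocalRing.maximalIdeal 𝒪')
    (χ : CuspForm.heckeAlgebra N 2 (↑S : Set ℕ) →+* 𝒪'),
    ∃ (r : ℕ) (ρ : GQ →* Matrix (Fin r) (Fin r) 𝒪'), 0 < r ∧ MatAdicCont ρ ∧
      (∀ (ℓ : ℕ) (hℓ : ℓ.Prime) (hℓN : ¬ ℓ ∣ N) (hℓS : ℓ ∉ (↑S : Set ℕ)),
        ∀ A : ValuationSubring (AlgebraicClosure ℚ), A.LiesOverPrime ℓ →
          ∀ σ : GQ, A.IsFrobeniusAt σ ℓ →
            ρ σ * ρ σ - χ (CuspForm.heckeAlgebra.T hℓ hℓN hℓS) • ρ σ
              + (ℓ : 𝒪') • (1 : Matrix _ _ 𝒪') = 0) ∧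
      (∀ q : ℕ, q.Prime → ¬ q ∣ N → q ≠ p → MatUnramAt ρ q)

/-- **A (CycChar).** The `p`-adic cyclotomic character with values in a complete discrete
valuation ring of residue characteristic `p`. -/
def Stmt_CycChar : Prop :=
  ∀ (p : ℕ) [Fact p.Prime] (𝒪 : Type) [CommRing 𝒪] [IsDomain 𝒪] [IsDiscreteValuationRing 𝒪]
    [IsAdicComplete (IsLocalRing.maximalIdeal 𝒪) 𝒪] [CharZero 𝒪]
    (_hp : (p : 𝒪) ∈ IsLocalRing.maximalIdeal 𝒪) (S : Finset ℕ) (_hpS : p ∈ S),
    ∃ ε : GQ →* 𝒪ˣ, CharAdicCont ε ∧ CharCycAt ε S ∧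
      ∀ q : ℕ, q.Prime → q ≠ p → CharUnramAt ε q

/-- **B (Step 0).** Frobenius density + completeness: every element of the Galois group
satisfies a quadratic relation with constant term `ε g`. -/
def Stmt_Step0 : Prop :=
  ∀ (𝒪 : Type) [CommRing 𝒪] [IsDomain 𝒪] [IsDiscreteValuationRing 𝒪]
    [IsAdicComplete (IsLocalRing.maximalIdeal 𝒪) 𝒪]
    (S : Finset ℕ) (a : ℕ → 𝒪) (r : ℕ) (_hr : 0 < r) (ρ : GQ →* Matrix (Fin r) (Fin r) 𝒪)
    (ε : GQ →* 𝒪ˣ), MatAdicCont ρ → CharAdicCont ε → MatES ρ a S → CharCycAt ε S →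
      QuadAll ρ ε

/-- **C (SmallPiece).** Pure linear algebra: if every group element satisfies a monic quadratic
whose constant term is a character, there is a stable subspace of dimension `1` or `2` over a
finite extension of the base field. -/
def Stmt_SmallPiece : Prop :=
  ∀ (K : Type) [Field K] [CharZero K] (G : Type) [Group G] (r : ℕ) (_hr : 0 < r)
    (ρ : G →* Matrix (Fin r) (Fin r) K) (ε : G →* Kˣ), QuadAll ρ ε →
    ∃ (K'' : Type) (_ : Field K'') (_ : Algebra K K'') (_ : FiniteDimensional K K'')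
      (W : Submodule K'' (Fin r → K'')),
      W ≠ ⊥ ∧ Module.finrank K'' W ≤ 2 ∧
        ∀ g : G, ∀ w ∈ W, ((ρ g).map (algebraMap K K'')).mulVec w ∈ W

/-- **D (Lemma B).** In rank two, either `det = ε` or the representation is scalar. -/
def Stmt_LemmaB : Prop :=
  ∀ (R : Type) [CommRing R] [IsDomain R] (G : Type) [Group G]
    (ρ : G →* Matrix (Fin 2) (Fin 2) R) (ε : G →* Rˣ), QuadAll ρ ε →
    (∀ g : G, (ρ g).det = (ε g : R)) ∨ (∀ g : G, ∃ c : R, ρ g = c • (1 : Matrix _ _ R))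

/-- **E (Lattice).** Over a principal ideal domain `R` with fraction field `K`, the lattice
`W ∩ R^r` of a subspace `W ⊆ K^r` is a direct summand of `R^r`: there are matrices `P`
(columns = a basis of the lattice) and `Q` (a retraction). -/
def Stmt_Lattice : Prop :=
  ∀ (R : Type) [CommRing R] [IsDomain R] [IsPrincipalIdealRing R]
    (K : Type) [Field K] [Algebra R K] [IsFractionRing R K]
    (r : ℕ) (W : Submodule K (Fin r → K)),
    ∃ (P : Matrix (Fin r) (Fin (Module.finrank K W)) R)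
      (Q : Matrix (Fin (Module.finrank K W)) (Fin r) R),
      Q * P = 1 ∧ (∀ j, (fun i => algebraMap R K (P i j)) ∈ W) ∧
        ∀ v : Fin r → R, (fun i => algebraMap R K (v i)) ∈ W → P.mulVec (Q.mulVec v) = v

/-- **F (CharSum).** A character `ψ` whose values at Frobenius lifts are roots of the
Eichler–Shimura polynomials gives the 2-dimensional representation `ψ ⊕ ε ψ⁻¹` with the right
characteristic polynomials. -/
def Stmt_CharSum : Prop :=
  ∀ (R : Type) [CommRing R] (G : Type) [Group G] (ψ ε : G →* Rˣ),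
    ∃ ρ : G →* Matrix (Fin 2) (Fin 2) R,
      (∀ g, ρ g = Matrix.diagonal ![(ψ g : R), ((ε g * (ψ g)⁻¹ : Rˣ) : R)]) ∧
      ∀ (g : G) (a ℓ : R), (ψ g : R) * ψ g - a * ψ g + ε g = 0 → (ε g : R) = ℓ →
        (ρ g).charpoly = X ^ 2 - C a * X + C ℓ

end Fermat.Agent.S30
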