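import Fermat.Agent.S30.Defs

/-!
# S30 work package E (Lattice) -- helper56

`stmt_lattice : Stmt_Lattice`: over a principal ideal domain `R` with fraction field `K`, the
lattice `W ∩ R^r` of a subspace `W ⊆ K^r` is a direct summand of `R^r`, free of rank
`finrank K W`; `P` = matrix of a basis, `Q` = matrix of a retraction.

Reusable pieces: `lat R W` (the lattice), `mem_lat`, `finrank_lat`, `exists_retraction`,
`exists_smul_mem_lat`.
-/

set_option autoImplicit false
set_option linter.unusedSectionVars false
set_option linter.style.haveILetI false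

namespace Fermat.Agent.S30.H56

open Module

section
variable (R : Type) [CommRing R] [IsDomain R] [IsPrincipalIdealRing R]
  (K : Type) [Field K] [Algebra R K] [IsFractionRing R K] (r : ℕ)

/-- coordinatewise `algebraMap`, as an `R`-linear map `R^r → K^r` -/
noncomputable def coord : (Fin r → R) →ₗ[R] (Fin r → K) :=
  (Algebra.linearMap R K).compLeft (Fin r)

lemma coord_apply (v : Fin r → R) : coord R K r v = fun i => algebraMap R K (v i) := rfl

lemma coord_injective : Function.Injective (coord R K r) := by
  intro v w h
  funext i
  exact IsFractionRing.injective R K (congrFun h i)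

variable {K r}

/-- `R^r → K^r / W` -/
noncomputable def qmap (W : Submodule K (Fin r → K)) :
    (Fin r → R) →ₗ[R] ((Fin r → K) ⧸ W) :=
  (W.mkQ.restrictScalars R) ∘ₗ coord R K r

lemma qmap_eq_zero_iff (W : Submodule K (Fin r → K)) (v : Fin r → R) :
    qmap R W v = 0 ↔ coord R K r v ∈ W := by
  simp [qmap]

/-- The lattice `W ∩ R^r`. -/
noncomputable def lat (W : Submodule K (Fin r → K)) : Submodule R (Fin r → R) :=
  LinearMap.ker (qmap R W)

lemma mem_lat (W : Submodule K (Fin r → K)) (v : Fin r → R) :
    v ∈ lat R W ↔ coord R K r v ∈ W := by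
  rw [lat, LinearMap.mem_ker, qmap_eq_zero_iff]

instance torsionFree_quot (W : Submodule K (Fin r → K)) :
    Module.IsTorsionFree R ((Fin r → K) ⧸ W) :=
  Module.IsTorsionFree.trans K

/-- the lattice, mapped into `W` -/
noncomputable def latToW (W : Submodule K (Fin r → K)) : lat R W →ₗ[R] W :=
  ((coord R K r) ∘ₗ (lat R W).subtype).codRestrict (W.restrictScalars R)
    (fun v => (mem_lat R W v).1 v.2)

lemma latToW_coe (W : Submodule K (Fin r → K)) (v : lat R W) :
    ((latToW R W v : W) : Fin r → K) = coord R K r v := rfl

lemma latToW_injective (W : Submodule K (Fin r → K)) : Function.Injective (latToW R W) := by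
  intro v w h
  apply Subtype.ext
  apply coord_injective R K r
  have := congrArg (fun x : W => (x : Fin r → K)) h
  simpa [latToW_coe] using this

/-- every element of `W` has a nonzero multiple in the lattice -/
lemma exists_smul_mem_lat (W : Submodule K (Fin r → K)) (w : W) :
    ∃ (c : R) (u : lat R W), c ≠ 0 ∧ latToW R W u = algebraMap R K c • w := by
  obtain ⟨b, hb⟩ := IsLocalization.exist_integer_multiples_of_finite (nonZeroDivisors R)
    (fun i => (w : Fin r → K) i)
  choose u hu using hb
  have hmem : u ∈ lat R W := by
    rw [mem_lat]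
    have : coord R K r u = algebraMap R K (b : R) • (w : Fin r → K) := by
      funext i
      rw [coord_apply]
      simp only [Pi.smul_apply, smul_eq_mul]
      rw [hu i, Algebra.smul_def]
    rw [this]
    exact W.smul_mem _ w.2
  refine ⟨b, ⟨u, hmem⟩, nonZeroDivisors.ne_zero b.2, ?_⟩
  apply Subtype.ext
  funext i
  rw [latToW_coe, coord_apply]
  simp only [Submodule.coe_smul, Pi.smul_apply, smul_eq_mul]
  rw [hu i, Algebra.smul_def]

instance free_lat (W : Submodule K (Fin r → K)) : Module.Free R (lat R W) := inferInstance
instance finite_lat (W : Submodule K (Fin r → K)) : Module.Finite R (lat R W) := inferInstance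

lemma finrank_lat (W : Submodule K (Fin r → K)) :
    Module.finrank R (lat R W) = Module.finrank K W := by
  set b := Module.finBasis R (lat R W) with hb
  set v : Fin (Module.finrank R (lat R W)) → W := fun j => latToW R W (b j) with hv
  have hli : LinearIndependent K v := by
    rw [← LinearIndependent.iff_fractionRing R K]
    exact b.linearIndependent.map' (latToW R W) (LinearMap.ker_eq_bot.2 (latToW_injective R W))
  have hsp : ⊤ ≤ Submodule.span K (Set.range v) := by
    rintro w -
    obtain ⟨c, u, hc, hu⟩ := exists_smul_mem_lat R W w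
    have hcK : algebraMap R K c ≠ 0 := by
      rwa [Ne, map_eq_zero_iff _ (IsFractionRing.injective R K)]
    have hu' : latToW R W u ∈ Submodule.span K (Set.range v) := by
      have : u = ∑ j, b.repr u j • b j := (b.sum_repr u).symm
      rw [this, map_sum]
      refine Submodule.sum_mem _ (fun j _ => ?_)
      rw [map_smul, ← algebraMap_smul K (b.repr u j)]
      exact Submodule.smul_mem _ _ (Submodule.subset_span ⟨j, rfl⟩)
    have : w = (algebraMap R K c)⁻¹ • latToW R W u := by
      rw [hu, smul_smul, inv_mul_cancel₀ hcK, one_smul]
    rw [this]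
    exact Submodule.smul_mem _ _ hu'
  have := Module.finrank_eq_card_basis (Basis.mk hli hsp)
  simpa using this.symm

/-- A retraction of `R^r` onto the lattice. -/
lemma exists_retraction (W : Submodule K (Fin r → K)) :
    ∃ π : (Fin r → R) →ₗ[R] lat R W, ∀ v : lat R W, π v = v := by
  -- the range of `qmap` is finitely generated and torsion-free, hence free, hence projective
  set g : (Fin r → R) →ₗ[R] LinearMap.range (qmap R W) := (qmap R W).rangeRestrict with hg
  have hsurj : Function.Surjective g := LinearMap.surjective_rangeRestrict _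
  haveI : Module.Finite R (LinearMap.range (qmap R W)) := Module.Finite.range _
  haveI : Module.Free R (LinearMap.range (qmap R W)) := Module.free_of_finite_type_torsion_free'
  obtain ⟨s, hs⟩ := Module.projective_lifting_property g LinearMap.id hsurj
  have hker : ∀ v, g v = 0 ↔ v ∈ lat R W := by
    intro v
    rw [lat, LinearMap.mem_ker, hg]
    constructor
    · intro h
      have := congrArg Subtype.val h
      simpa using this
    · intro h
      apply Subtype.ext
      simpa using h
  have hmem : ∀ v, v - s (g v) ∈ lat R W := by
    intro v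
    rw [← hker, map_sub]
    have : g (s (g v)) = g v := by
      have := LinearMap.congr_fun hs (g v)
      simpa using this
    rw [this, sub_self]
  refine ⟨(LinearMap.id - s ∘ₗ g).codRestrict (lat R W) (fun v => by simpa using hmem v), ?_⟩
  intro v
  apply Subtype.ext
  have hv : g (v : Fin r → R) = 0 := (hker _).2 v.2
  simp [hv]

end

/-- **WP E (Lattice)**: the exact interface `Stmt_Lattice`. -/
theorem stmt_lattice : Stmt_Lattice := by
  intro R _ _ _ K _ _ _ r W
  obtain ⟨π, hπ⟩ := exists_retraction R W
  -- a basis of the lattice indexed by `Fin (finrank K W)`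
  let b : Basis (Fin (Module.finrank K W)) R (lat R W) :=
    (Module.finBasis R (lat R W)).reindex (finCongr (finrank_lat R W))
  let Pm : (Fin (Module.finrank K W) → R) →ₗ[R] (Fin r → R) :=
    (lat R W).subtype ∘ₗ (b.equivFun.symm : (Fin (Module.finrank K W) → R) →ₗ[R] lat R W)
  let Qm : (Fin r → R) →ₗ[R] (Fin (Module.finrank K W) → R) :=
    (b.equivFun : lat R W →ₗ[R] (Fin (Module.finrank K W) → R)) ∘ₗ π
  have hQP : Qm ∘ₗ Pm = LinearMap.id := by
    apply LinearMap.ext
    intro x
    simp only [Pm, Qm, LinearMap.comp_apply, LinearMap.id_apply, Submodule.subtype_apply,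
      LinearEquiv.coe_coe]
    rw [hπ, LinearEquiv.apply_symm_apply]
  refine ⟨LinearMap.toMatrix' Pm, LinearMap.toMatrix' Qm, ?_, ?_, ?_⟩
  · rw [← LinearMap.toMatrix'_comp, hQP, LinearMap.toMatrix'_id]
  · intro j
    have h1 : (fun i => LinearMap.toMatrix' Pm i j) = Pm (Pi.single j 1) := by
      funext i
      rw [LinearMap.toMatrix'_apply]
    have h2 : Pm (Pi.single j 1) ∈ lat R W := by
      simp only [Pm, LinearMap.comp_apply, Submodule.subtype_apply]
      exact Submodule.coe_mem _
    have := (mem_lat R W _).1 h2
    rw [coord_apply] at this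
    have h3 : (fun i => algebraMap R K (LinearMap.toMatrix' Pm i j))
        = fun i => algebraMap R K (Pm (Pi.single j 1) i) := by
      funext i
      rw [congrFun h1 i]
    rw [h3]
    exact this
  · intro v hv
    have hvL : v ∈ lat R W := (mem_lat R W v).2 hv
    rw [LinearMap.toMatrix'_mulVec, LinearMap.toMatrix'_mulVec]
    simp only [Pm, Qm, LinearMap.comp_apply, Submodule.subtype_apply, LinearEquiv.coe_coe]
    rw [LinearEquiv.symm_apply_apply]
    have := hπ ⟨v, hvL⟩
    exact congrArg Subtype.val this

end Fermat.Agent.S30.H56
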