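import Fermat.Agent.S30.Defs
import Fermat.Prelude.Def_GaloisRep_Adic

/-!
# S30 wiring: interfaces for the assembly (owner helper29; cluster R)

* G1 `Stmt_MatToRep`  : a continuous `2 × 2` matrix representation is a `GaloisRepAdic`.
* G2 `Stmt_Compress`  : a stable subspace `W` of `K^r` (`K` the fraction field of a principal
  ideal domain `R`) of a matrix representation over `R` gives a matrix representation of rank
  `finrank W` over `R`, intertwined with the given one by `P`, retracted by `Q`.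
* G3 `Stmt_MapRep`    : base change of matrix representations along a local homomorphism keeps
  continuity.
-/

set_option autoImplicit false

open Polynomial

namespace Fermat.Agent.S30

/-- **G1 (MatToRep).** A continuous `2 × 2` matrix representation over a local ring is a
`GaloisRepAdic` with the same characteristic polynomials and the same unramified primes. -/
def Stmt_MatToRep : Prop :=
  ∀ (R : Type) [CommRing R] [IsLocalRing R] (ρ : GQ →* Matrix (Fin 2) (Fin 2) R),
    MatAdicCont ρ →
    ∃ ρ' : GaloisRepAdic R,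
      (∀ σ : GQ, LinearMap.charpoly (ρ'.ρ σ) = (ρ σ).charpoly) ∧
      ∀ q : ℕ, MatUnramAt ρ q → ρ'.IsUnramifiedAt q

/-- **G2 (Compress).** Restriction of a matrix representation over a principal ideal domain `R`
to (the lattice of) a stable subspace `W` of `K^r`: a representation `ρ'` of rank `finrank W`
with `ρ g * P = P * ρ' g` and `Q * P = 1` (so `ρ' g = Q * ρ g * P`). -/
def Stmt_Compress : Prop :=
  ∀ (R : Type) [CommRing R] [IsDomain R] [IsPrincipalIdealRing R]
    (K : Type) [Field K] [Algebra R K] [IsFractionRing R K]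
    (G : Type) [Group G] (r : ℕ) (ρ : G →* Matrix (Fin r) (Fin r) R)
    (W : Submodule K (Fin r → K)),
    (∀ g : G, ∀ w ∈ W, ((ρ g).map (algebraMap R K)).mulVec w ∈ W) →
    ∃ (P : Matrix (Fin r) (Fin (Module.finrank K W)) R)
      (Q : Matrix (Fin (Module.finrank K W)) (Fin r) R)
      (ρ' : G →* Matrix (Fin (Module.finrank K W)) (Fin (Module.finrank K W)) R),
      Q * P = 1 ∧ ∀ g : G, ρ g * P = P * ρ' g

/-- **G3 (MapRep).** Base change of a matrix representation along a local ring homomorphism keeps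
adic continuity. -/
def Stmt_MapRep : Prop :=
  ∀ (R R' : Type) [CommRing R] [IsLocalRing R] [CommRing R'] [IsLocalRing R']
    (φ : R →+* R') (_ : IsLocalHom φ) (r : ℕ) (ρ : GQ →* Matrix (Fin r) (Fin r) R),
    MatAdicCont ρ →
    ∃ ρ' : GQ →* Matrix (Fin r) (Fin r) R', (∀ g, ρ' g = (ρ g).map φ) ∧ MatAdicCont ρ'

/-- **G4 (Assemble).** The pure-algebra core of S30: a nonzero continuous matrix representation
of any rank satisfying the Eichler–Shimura relations (with `ε` cyclotomic away from `S`) gives a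
`2`-dimensional representation over a finite extension with the right Frobenius characteristic
polynomials.  Two transfer clauses: where `ρ` and `ε` are trivial so is the new representation,
and where `ρ` is unipotent of order `2` and `ε` trivial the new one has characteristic
polynomial `(X - 1) ^ 2`. -/
def Stmt_Assemble : Prop :=
  ∀ (𝒪 : Type) [CommRing 𝒪] [IsDomain 𝒪] [IsDiscreteValuationRing 𝒪]
    [IsAdicComplete (IsLocalRing.maximalIdeal 𝒪) 𝒪] [Finite (IsLocalRing.ResidueField 𝒪)]
    [CharZero 𝒪]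
    (S : Finset ℕ) (a : ℕ → 𝒪) (r : ℕ) (_hr : 0 < r) (ρ : GQ →* Matrix (Fin r) (Fin r) 𝒪)
    (ε : GQ →* 𝒪ˣ), MatAdicCont ρ → CharAdicCont ε → MatES ρ a S → CharCycAt ε S →
    ∃ (𝒪'' : Type) (_ : CommRing 𝒪'') (_ : IsDomain 𝒪'') (_ : IsDiscreteValuationRing 𝒪'')
      (_ : IsAdicComplete (IsLocalRing.maximalIdeal 𝒪'') 𝒪'')
      (_ : Finite (IsLocalRing.ResidueField 𝒪'')) (_ : CharZero 𝒪'')
      (_ : Algebra 𝒪 𝒪'') (_ : Module.Finite 𝒪 𝒪'') (_ : IsLocalHom (algebraMap 𝒪 𝒪'')),
      Function.Injective (algebraMap 𝒪 𝒪'') ∧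
      ∃ ρ'' : GaloisRepAdic 𝒪'',
        (∀ ℓ : ℕ, ℓ.Prime → ℓ ∉ S →
          ∀ A : ValuationSubring (AlgebraicClosure ℚ), A.LiesOverPrime ℓ →
            ∀ σ : GQ, A.IsFrobeniusAt σ ℓ →
              LinearMap.charpoly (ρ''.ρ σ) =
                X ^ 2 - C (algebraMap 𝒪 𝒪'' (a ℓ)) * X + C ((ℓ : 𝒪''))) ∧
        (∀ σ : GQ, ρ σ = 1 → ε σ = 1 → ρ''.ρ σ = 1) ∧
        (∀ σ : GQ, (ρ σ - 1) ^ 2 = 0 → ε σ = 1 →
          LinearMap.charpoly (ρ''.ρ σ) = (X - 1) ^ 2)

end Fermat.Agent.S30
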