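import Mathlib.LinearAlgebra.Charpoly.ToMatrix
import Fermat.Agent.S30.Defs2

/-!
# S30 wiring, WP G1 (helper2): a continuous `2 × 2` matrix representation is a `GaloisRepAdic`

`stmt_MatToRep : Fermat.Agent.S30.Stmt_MatToRep`, with `V = Fin 2 → R` and `ρ' σ = toLin' (ρ σ)`.
-/

set_option autoImplicit false
set_option linter.style.haveILetI false
set_option linter.unusedSectionVars false
set_option linter.dupNamespace false

namespace Fermat.Agent.S30.H2

open Fermat.Agent.S30

section

variable {R : Type} [CommRing R]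

/-- A vector all of whose coordinates lie in the ideal `I` lies in `I • ⊤`. -/
theorem mem_smul_top_of_forall_mem {r : ℕ} (I : Ideal R) (w : Fin r → R)
    (hw : ∀ i, w i ∈ I) : w ∈ I • (⊤ : Submodule R (Fin r → R)) := by
  classical
  have h1 : w = ∑ i, w i • (Pi.single i (1 : R) : Fin r → R) := by
    ext j
    simp [Finset.sum_apply, Pi.single_apply]
  rw [h1]
  exact Submodule.sum_mem _ (fun i _ => Submodule.smul_mem_smul (hw i) Submodule.mem_top)

/-- The representation on `Fin r → R` attached to a matrix representation. -/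
noncomputable def matToEnd {r : ℕ} (ρ : GQ →* Matrix (Fin r) (Fin r) R) :
    GQ →* Module.End R (Fin r → R) where
  toFun σ := Matrix.toLin' (ρ σ)
  map_one' := by rw [map_one, Matrix.toLin'_one]; rfl
  map_mul' σ τ := by rw [map_mul, Matrix.toLin'_mul]; rfl

theorem matToEnd_apply {r : ℕ} (ρ : GQ →* Matrix (Fin r) (Fin r) R) (σ : GQ) :
    matToEnd ρ σ = Matrix.toLin' (ρ σ) := rfl

variable [IsLocalRing R]

theorem matToEnd_adicContinuous {r : ℕ} (ρ : GQ →* Matrix (Fin r) (Fin r) R)
    (hρ : MatAdicCont ρ) : GaloisActionIsAdicContinuous R (matToEnd ρ) := by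
  intro n
  obtain ⟨L, hL, h⟩ := hρ n
  refine ⟨L, hL, fun σ hσ v => ?_⟩
  apply mem_smul_top_of_forall_mem
  intro i
  have h1 : (matToEnd ρ σ v - v) i = ∑ j, (ρ σ - 1) i j * v j := by
    rw [matToEnd_apply, Pi.sub_apply, Matrix.toLin'_apply, Matrix.mulVec, dotProduct]
    have h2 : v i = ∑ j, (1 : Matrix (Fin r) (Fin r) R) i j * v j := by
      simp [Matrix.one_apply]
    conv_lhs => rw [h2]
    rw [← Finset.sum_sub_distrib]
    refine Finset.sum_congr rfl (fun j _ => ?_)
    rw [Matrix.sub_apply, sub_mul]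
  rw [h1]
  exact Ideal.sum_mem _ (fun j _ => Ideal.mul_mem_right _ _ (h σ hσ i j))

/-- **G1 (MatToRep).** -/
theorem stmt_MatToRep : Stmt_MatToRep := by
  intro R _ _ ρ hρ
  refine ⟨{ V := Fin 2 → R
            finrank_eq := by simp
            ρ := matToEnd ρ
            isAdicContinuous := matToEnd_adicContinuous ρ hρ }, ?_, ?_⟩
  · intro σ
    exact Matrix.charpoly_toLin' (ρ σ)
  · intro q hq P hP σ hσ
    show matToEnd ρ σ = 1
    rw [matToEnd_apply, hq P hP σ hσ, Matrix.toLin'_one]
    rfl

end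

end Fermat.Agent.S30.H2
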