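import Fermat.Agent.S30.Defs2
import Fermat.Agent.S30.H56_Lattice

/-!
# S30 wiring, WP G2 (helper2): compression of a matrix representation to a stable subspace

`stmt_Compress : Fermat.Agent.S30.Stmt_Compress`, from `H56.stmt_lattice`: `ρ' g = Q * ρ g * P`.
-/

set_option autoImplicit false
set_option linter.style.haveILetI false
set_option linter.unusedSectionVars false
set_option linter.dupNamespace false

namespace Fermat.Agent.S30.H2

open Fermat.Agent.S30

/-- **G2 (Compress).** -/
theorem stmt_Compress : Stmt_Compress := by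
  intro R _ _ _ K _ _ _ G _ r ρ W hW
  obtain ⟨P, Q, hQP, hPW, hPQ⟩ := Fermat.Agent.S30.H56.stmt_lattice R K r W
  -- the columns of `ρ g * P` lie in `W`
  have hcol : ∀ (g : G) (j : Fin (Module.finrank K W)),
      (fun i => algebraMap R K ((ρ g * P) i j)) ∈ W := by
    intro g j
    have h1 := hW g _ (hPW j)
    have h2 : ((ρ g).map (algebraMap R K)).mulVec (fun i => algebraMap R K (P i j)) =
        fun i => algebraMap R K ((ρ g * P) i j) := by
      ext i
      simp only [Matrix.mulVec, dotProduct, Matrix.map_apply, Matrix.mul_apply, map_sum, map_mul]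
    rw [h2] at h1
    exact h1
  -- hence `P * Q` fixes `ρ g * P`
  have hfix : ∀ g : G, P * (Q * (ρ g * P)) = ρ g * P := by
    intro g
    ext i j
    have h1 := hPQ (fun i => (ρ g * P) i j) (hcol g j)
    have h2 := congrFun h1 i
    rw [← h2]
    simp only [Matrix.mul_apply, Matrix.mulVec, dotProduct]
  refine ⟨P, Q,
    { toFun := fun g => Q * ρ g * P
      map_one' := by rw [map_one, Matrix.mul_one, hQP]
      map_mul' := fun g h => by
        rw [map_mul]
        calc Q * (ρ g * ρ h) * P = Q * ρ g * (ρ h * P) := by
              simp only [Matrix.mul_assoc]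
          _ = Q * ρ g * (P * (Q * (ρ h * P))) := by rw [hfix h]
          _ = Q * ρ g * P * (Q * ρ h * P) := by simp only [Matrix.mul_assoc] },
    hQP, ?_⟩
  intro g
  show ρ g * P = P * (Q * ρ g * P)
  rw [Matrix.mul_assoc Q, hfix g]

end Fermat.Agent.S30.H2
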