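import Fermat.Agent.S30.Defs2

/-!
# S30 wiring, WP G3 (helper2): base change of matrix representations along a local homomorphism

`stmt_MapRep : Fermat.Agent.S30.Stmt_MapRep`.
-/

set_option autoImplicit false
set_option linter.style.haveILetI false
set_option linter.unusedSectionVars false
set_option linter.dupNamespace false

namespace Fermat.Agent.S30.H2

open Fermat.Agent.S30

/-- A local homomorphism maps `𝔪 ^ n` into `𝔪' ^ n`. -/
theorem map_mem_maximalIdeal_pow {R R' : Type} [CommRing R] [IsLocalRing R] [CommRing R']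
    [IsLocalRing R'] (φ : R →+* R') [IsLocalHom φ] (n : ℕ) {x : R}
    (hx : x ∈ IsLocalRing.maximalIdeal R ^ n) : φ x ∈ IsLocalRing.maximalIdeal R' ^ n := by
  have hmap : (IsLocalRing.maximalIdeal R ^ n).map φ ≤ IsLocalRing.maximalIdeal R' ^ n := by
    rw [Ideal.map_pow]
    exact Ideal.pow_right_mono (Ideal.map_le_iff_le_comap.mpr fun a ha =>
      Ideal.mem_comap.mpr (map_nonunit φ a ha)) n
  exact hmap (Ideal.mem_map_of_mem φ hx)

/-- **G3 (MapRep).** -/
theorem stmt_MapRep : Stmt_MapRep := by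
  intro R R' _ _ _ _ φ hφ r ρ hρ
  haveI := hφ
  refine ⟨(RingHom.mapMatrix φ : Matrix (Fin r) (Fin r) R →+* Matrix (Fin r) (Fin r) R')
    |>.toMonoidHom.comp ρ, fun g => rfl, ?_⟩
  intro n
  obtain ⟨L, hL, h⟩ := hρ n
  refine ⟨L, hL, fun σ hσ i j => ?_⟩
  have h1 : (((RingHom.mapMatrix φ : Matrix (Fin r) (Fin r) R →+* Matrix (Fin r) (Fin r) R')
      |>.toMonoidHom.comp ρ) σ - 1) i j = φ ((ρ σ - 1) i j) := by
    simp only [MonoidHom.coe_comp, Function.comp_apply, RingHom.toMonoidHom_eq_coe,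
      MonoidHom.coe_coe, RingHom.mapMatrix_apply, Matrix.sub_apply, Matrix.map_apply, map_sub]
    congr 1
    by_cases hij : i = j
    · subst hij; simp
    · simp [Matrix.one_apply_ne hij]
  rw [h1]
  exact map_mem_maximalIdeal_pow φ n (h σ hσ i j)

end Fermat.Agent.S30.H2
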