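import Mathlib
import Fermat.Agent.S30.Defs
import Fermat.Agent.R.H91_Lucas

/-!
# S30 wiring, WP B (helper2): Step 0, `R.Stmt_FD → Stmt_Step0`

Frobenius density + completeness: every element `g` of the Galois group satisfies a quadratic
relation `ρ(g)² - a(g) ρ(g) + ε(g) = 0`.

* `lucas_comm`, `lucas_algebra` : if `x² - a x + d = 0` then
  `(x^j)² - V_j(a,d) x^j + d^j = 0` (`V_j` the Lucas sequence of `R/H91_Lucas.lean`).
* `step0 : Fermat.Agent.R.Stmt_FD → Stmt_Step0`.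
-/

set_option autoImplicit false
set_option linter.style.haveILetI false
set_option linter.unusedSectionVars false
set_option linter.dupNamespace false

open Polynomial

namespace Fermat.Agent.S30.H2

open Fermat.Agent.S30 Fermat.Agent.R.H91

section Lucas

/-- Lucas sequences in a commutative ring. -/
theorem lucas_comm {C : Type*} [CommRing C] (x a d : C) (h : x * x - a * x + d = 0) (j : ℕ) :
    x ^ j * x ^ j - lucasV a d j * x ^ j + d ^ j = 0 := by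
  have hxy : x * (a - x) = d := by linear_combination (-1 : C) * h
  have hV : ∀ j : ℕ, x ^ j + (a - x) ^ j = lucasV a d j := by
    intro j
    induction j using Nat.strong_induction_on with
    | _ j ih =>
      match j with
      | 0 => rw [pow_zero, pow_zero, lucasV_zero]; norm_num
      | 1 => rw [pow_one, pow_one, lucasV_one]; ring
      | (j + 2) =>
        rw [lucasV_add_two, ← ih (j + 1) (by omega), ← ih j (by omega), ← hxy]
        ring
  rw [← hV j, ← hxy, mul_pow]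
  ring

/-- Lucas sequences in an algebra. -/
theorem lucas_algebra {R : Type*} [CommRing R] {A : Type*} [Ring A] [Algebra R A] (x : A)
    (a d : R) (h : x * x - a • x + d • (1 : A) = 0) (j : ℕ) :
    x ^ j * x ^ j - lucasV a d j • x ^ j + (d ^ j) • (1 : A) = 0 := by
  obtain ⟨f, hf⟩ : ∃ f : R[X], f = X * X - C a * X + C d := ⟨_, rfl⟩
  have hdvd : f ∣ X ^ j * X ^ j - C (lucasV a d j) * X ^ j + C (d ^ j) := by
    rw [← AdjoinRoot.mk_eq_zero]
    have h0 : AdjoinRoot.root f * AdjoinRoot.root f - AdjoinRoot.of f a * AdjoinRoot.root f +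
        AdjoinRoot.of f d = 0 := by
      have h00 : AdjoinRoot.mk f (X * X - C a * X + C d) = 0 := by
        rw [← hf]; exact AdjoinRoot.mk_self
      simpa [AdjoinRoot.mk_X, AdjoinRoot.mk_C] using h00
    have h1 := lucas_comm (AdjoinRoot.root f) (AdjoinRoot.of f a) (AdjoinRoot.of f d) h0 j
    rw [← map_lucasV] at h1
    simpa [AdjoinRoot.mk_X, AdjoinRoot.mk_C] using h1
  obtain ⟨Q, hQ⟩ := hdvd
  have h2 := congrArg (Polynomial.aeval x) hQ
  have hfx : Polynomial.aeval x f = 0 := by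
    rw [hf]
    simp only [map_add, map_sub, map_mul, aeval_X, aeval_C, Algebra.algebraMap_eq_smul_one,
      smul_mul_assoc, one_mul]
    exact h
  rw [map_mul, hfx, zero_mul] at h2
  simp only [map_add, map_sub, map_mul, map_pow, aeval_X, aeval_C,
    Algebra.algebraMap_eq_smul_one, smul_mul_assoc, one_mul] at h2
  rw [← h2, _root_.smul_pow, one_pow]

end Lucas

section MatMem

variable {R : Type} [CommRing R] {r : ℕ}

/-- All entries of the matrix lie in the ideal `I`. -/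
def MatMem (I : Ideal R) (M : Matrix (Fin r) (Fin r) R) : Prop := ∀ i j, M i j ∈ I

theorem MatMem.add {I : Ideal R} {M N : Matrix (Fin r) (Fin r) R} (hM : MatMem I M)
    (hN : MatMem I N) : MatMem I (M + N) := fun i j => by
  rw [Matrix.add_apply]; exact I.add_mem (hM i j) (hN i j)

theorem MatMem.sub {I : Ideal R} {M N : Matrix (Fin r) (Fin r) R} (hM : MatMem I M)
    (hN : MatMem I N) : MatMem I (M - N) := fun i j => by
  rw [Matrix.sub_apply]; exact I.sub_mem (hM i j) (hN i j)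

theorem MatMem.mul_left {I : Ideal R} {M : Matrix (Fin r) (Fin r) R} (hM : MatMem I M)
    (N : Matrix (Fin r) (Fin r) R) : MatMem I (N * M) := fun i j => by
  rw [Matrix.mul_apply]
  exact I.sum_mem (fun k _ => I.mul_mem_left _ (hM k j))

theorem MatMem.mul_right {I : Ideal R} {M : Matrix (Fin r) (Fin r) R} (hM : MatMem I M)
    (N : Matrix (Fin r) (Fin r) R) : MatMem I (M * N) := fun i j => by
  rw [Matrix.mul_apply]
  exact I.sum_mem (fun k _ => I.mul_mem_right _ (hM i k))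

theorem MatMem.smul {I : Ideal R} {M : Matrix (Fin r) (Fin r) R} (hM : MatMem I M)
    (c : R) : MatMem I (c • M) := fun i j => by
  rw [Matrix.smul_apply, smul_eq_mul]; exact I.mul_mem_left _ (hM i j)

theorem MatMem.smul_one {I : Ideal R} {c : R} (hc : c ∈ I) :
    MatMem I (c • (1 : Matrix (Fin r) (Fin r) R)) := fun i j => by
  rw [Matrix.smul_apply, smul_eq_mul]; exact I.mul_mem_right _ hc

theorem MatMem.mono {I J : Ideal R} (hIJ : I ≤ J) {M : Matrix (Fin r) (Fin r) R}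
    (hM : MatMem I M) : MatMem J M := fun i j => hIJ (hM i j)

end MatMem

section Step0

variable {𝒪 : Type} [CommRing 𝒪] [IsLocalRing 𝒪] {r : ℕ}

/-- The approximate quadratic relation at level `n`. -/
theorem exists_approx (hFD : Fermat.Agent.R.Stmt_FD) (S : Finset ℕ) (a : ℕ → 𝒪)
    (ρ : GQ →* Matrix (Fin r) (Fin r) 𝒪) (ε : GQ →* 𝒪ˣ) (hρ : MatAdicCont ρ)
    (hε : CharAdicCont ε) (hES : MatES ρ a S) (hcyc : CharCycAt ε S) (g : GQ) (n : ℕ) :
    ∃ b : 𝒪, MatMem (IsLocalRing.maximalIdeal 𝒪 ^ n)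
      (ρ g * ρ g - b • ρ g + (ε g : 𝒪) • (1 : Matrix (Fin r) (Fin r) 𝒪)) := by
  obtain ⟨L₁, hL₁, h₁⟩ := hρ n
  obtain ⟨L₂, hL₂, h₂⟩ := hε n
  haveI := hL₁
  haveI := hL₂
  obtain ⟨ℓ, A, σ, j, hℓ, hℓS, hA, hσ, hσg⟩ := hFD S (L₁ ⊔ L₂) inferInstance g
  -- `τ = g⁻¹ σ^j` fixes `L₁ ⊔ L₂`
  have hτ : ∀ x ∈ L₁ ⊔ L₂, (g⁻¹ * σ ^ j) x = x := by
    intro x hx
    rw [AlgEquiv.mul_apply, hσg x hx]
    exact (AlgEquiv.symm_apply_apply g x)
  have hτ₁ : ∀ x ∈ L₁, (g⁻¹ * σ ^ j) x = x := fun x hx => hτ x (le_sup_left (a := L₁) hx)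
  have hτ₂ : ∀ x ∈ L₂, (g⁻¹ * σ ^ j) x = x := fun x hx => hτ x (le_sup_right (b := L₂) hx)
  have hσj : σ ^ j = g * (g⁻¹ * σ ^ j) := by rw [mul_inv_cancel_left]
  set I := IsLocalRing.maximalIdeal 𝒪 ^ n with hI
  -- `ρ(σ)^j ≡ ρ(g)`
  have hρ1 : MatMem I (ρ σ ^ j - ρ g) := by
    have h3 : ρ σ ^ j - ρ g = ρ g * (ρ (g⁻¹ * σ ^ j) - 1) := by
      rw [mul_sub, mul_one, ← map_mul, ← hσj, map_pow]
    rw [h3]
    exact MatMem.mul_left (h₁ _ hτ₁) _
  -- `ε(σ)^j ≡ ε(g)`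
  have hε1 : ((ℓ : 𝒪) ^ j - (ε g : 𝒪)) ∈ I := by
    have h3 : ((ℓ : 𝒪) ^ j - (ε g : 𝒪)) = (ε g : 𝒪) * (((ε (g⁻¹ * σ ^ j) : 𝒪ˣ) : 𝒪) - 1) := by
      rw [mul_sub, mul_one, ← Units.val_mul, ← map_mul, ← hσj, map_pow, Units.val_pow_eq_pow_val,
        hcyc ℓ hℓ hℓS A hA σ hσ]
    rw [h3]
    exact Ideal.mul_mem_left _ _ (h₂ _ hτ₂)
  -- Lucas
  have hL := lucas_algebra (ρ σ) (a ℓ) (ℓ : 𝒪) (hES ℓ hℓ hℓS A hA σ hσ) j
  refine ⟨lucasV (a ℓ) (ℓ : 𝒪) j, ?_⟩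
  have hdecomp : ρ g * ρ g - lucasV (a ℓ) (ℓ : 𝒪) j • ρ g +
      (ε g : 𝒪) • (1 : Matrix (Fin r) (Fin r) 𝒪) =
      (lucasV (a ℓ) (ℓ : 𝒪) j • (ρ σ ^ j - ρ g) -
        (ρ g * (ρ σ ^ j - ρ g) + (ρ σ ^ j - ρ g) * ρ σ ^ j)) -
        ((ℓ : 𝒪) ^ j - (ε g : 𝒪)) • (1 : Matrix (Fin r) (Fin r) 𝒪) := by
    have hL' : ρ σ ^ j * ρ σ ^ j = lucasV (a ℓ) (ℓ : 𝒪) j • ρ σ ^ j -
        ((ℓ : 𝒪) ^ j) • (1 : Matrix (Fin r) (Fin r) 𝒪) := by
      rw [eq_sub_iff_add_eq, ← sub_eq_zero, ← hL]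
      abel
    rw [mul_sub, sub_mul, hL', smul_sub, sub_smul]
    abel
  rw [hdecomp]
  exact ((hρ1.smul _).sub ((hρ1.mul_left _).add (hρ1.mul_right _))).sub (MatMem.smul_one hε1)

variable [IsAdicComplete (IsLocalRing.maximalIdeal 𝒪) 𝒪]

/-- **B (Step 0)**, for any complete local ring. -/
theorem quadAll_of_FD (hFD : Fermat.Agent.R.Stmt_FD) (S : Finset ℕ) (a : ℕ → 𝒪)
    (hr : 0 < r) (ρ : GQ →* Matrix (Fin r) (Fin r) 𝒪) (ε : GQ →* 𝒪ˣ) (hρ : MatAdicCont ρ)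
    (hε : CharAdicCont ε) (hES : MatES ρ a S) (hcyc : CharCycAt ε S) : QuadAll ρ ε := by
  intro g
  choose b hb using exists_approx hFD S a ρ ε hρ hε hES hcyc g
  set 𝔪 := IsLocalRing.maximalIdeal 𝒪 with h𝔪
  -- the sequence `b` is Cauchy
  have hcauchy : ∀ {m n : ℕ}, m ≤ n → b n - b m ∈ 𝔪 ^ m := by
    intro m n hmn
    have h1 : MatMem (𝔪 ^ m) ((b n - b m) • ρ g) := by
      have h2 : (b n - b m) • ρ g =
          (ρ g * ρ g - b m • ρ g + (ε g : 𝒪) • (1 : Matrix (Fin r) (Fin r) 𝒪)) -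
          (ρ g * ρ g - b n • ρ g + (ε g : 𝒪) • (1 : Matrix (Fin r) (Fin r) 𝒪)) := by
        rw [sub_smul]; abel
      rw [h2]
      exact (hb m).sub ((hb n).mono (Ideal.pow_le_pow_right hmn))
    have h3 : MatMem (𝔪 ^ m) ((b n - b m) • (1 : Matrix (Fin r) (Fin r) 𝒪)) := by
      have h4 : (b n - b m) • (1 : Matrix (Fin r) (Fin r) 𝒪) = ((b n - b m) • ρ g) * ρ g⁻¹ := by
        rw [Matrix.smul_mul, ← map_mul, mul_inv_cancel, map_one]
      rw [h4]
      exact h1.mul_right _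
    have h5 := h3 ⟨0, hr⟩ ⟨0, hr⟩
    rw [Matrix.smul_apply, Matrix.one_apply_eq, smul_eq_mul, mul_one] at h5
    exact h5
  -- the limit
  obtain ⟨c, hc⟩ := IsPrecomplete.prec (I := 𝔪) (M := 𝒪) inferInstance (f := b)
    (fun {m n} hmn => by
      rw [SModEq.sub_mem, smul_eq_mul, Ideal.mul_top]
      have := hcauchy hmn
      rw [← neg_sub]
      exact (𝔪 ^ m).neg_mem this)
  have hc' : ∀ n, b n - c ∈ 𝔪 ^ n := by
    intro n
    have := hc n
    rw [SModEq.sub_mem, smul_eq_mul, Ideal.mul_top] at this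
    exact this
  refine ⟨c, ?_⟩
  -- all entries of the relation lie in `⋂ 𝔪 ^ n = 0`
  have hall : ∀ n, MatMem (𝔪 ^ n)
      (ρ g * ρ g - c • ρ g + (ε g : 𝒪) • (1 : Matrix (Fin r) (Fin r) 𝒪)) := by
    intro n
    have h2 : ρ g * ρ g - c • ρ g + (ε g : 𝒪) • (1 : Matrix (Fin r) (Fin r) 𝒪) =
        (ρ g * ρ g - b n • ρ g + (ε g : 𝒪) • (1 : Matrix (Fin r) (Fin r) 𝒪)) +
          ((b n - c) • (1 : Matrix (Fin r) (Fin r) 𝒪)) * ρ g := by
      rw [Matrix.smul_mul, one_mul, sub_smul]; abel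
    rw [h2]
    exact (hb n).add ((MatMem.smul_one (hc' n)).mul_right _)
  ext i j
  rw [Matrix.zero_apply]
  apply IsHausdorff.haus (I := 𝔪) (M := 𝒪) inferInstance
  intro n
  rw [SModEq.sub_mem, sub_zero, smul_eq_mul, Ideal.mul_top]
  exact hall n i j

end Step0

/-- **B (Step 0).** -/
theorem step0 (hFD : Fermat.Agent.R.Stmt_FD) : Stmt_Step0 := by
  intro 𝒪 _ _ _ _ S a r hr ρ ε hρ hε hES hcyc
  exact quadAll_of_FD hFD S a hr ρ ε hρ hε hES hcyc

end Fermat.Agent.S30.H2
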