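import Fermat.Agent.S30.H29_SmallPiece
import Fermat.Agent.S30.H2_Compress
import Fermat.Agent.S30.H2_MapRep
import Fermat.Agent.S30.H2_Step0
import Fermat.Agent.R.H2_FiniteExtDVR
import Fermat.Agent.R.H89_S30Stmts
import Fermat.Agent.S35.Defs2

/-!
# S30 wiring, WP G4 (Assembly), helper29

`assembleS : Stmt_Step0 → Fermat.Agent.S35.Stmt_AssembleS` (structural form of the assembly):

* Step 0 gives the quadratic relations over `𝒪`;
* base change to `K = Frac 𝒪`, SmallPiece gives a stable subspace `W` of dimension `1` or `2` over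
  a finite extension `K''`;
* `exists_finiteExtDVR` gives the complete discrete valuation ring `𝒪''` of `K''`;
* Compress gives the representation `ρ_d` on the lattice of `W`;
* `d = 2`: Lemma B: `det = ε` (stable plane) or everything is scalar (stable line);
* `d = 1` or scalar: `ψ ⊕ ε ψ⁻¹`.
-/

set_option autoImplicit false

open Matrix

namespace Fermat.Agent.S30.H29

open Fermat.Agent.S30

section Transfer

variable {R : Type} [CommRing R] {G : Type} [Group G] {r d : ℕ}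

/-- The compressed representation is `Q * ρ g * P`. -/
theorem compress_eq (ρ : G →* Matrix (Fin r) (Fin r) R) (ρ' : G →* Matrix (Fin d) (Fin d) R)
    (P : Matrix (Fin r) (Fin d) R) (Q : Matrix (Fin d) (Fin r) R) (hQP : Q * P = 1)
    (hint : ∀ g, ρ g * P = P * ρ' g) (g : G) : ρ' g = Q * ρ g * P := by
  rw [Matrix.mul_assoc, hint, ← Matrix.mul_assoc, hQP, Matrix.one_mul]

/-- Quadratic relations pass to the compressed representation. -/
theorem quadAll_compress (ρ : G →* Matrix (Fin r) (Fin r) R)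
    (ρ' : G →* Matrix (Fin d) (Fin d) R)
    (P : Matrix (Fin r) (Fin d) R) (Q : Matrix (Fin d) (Fin r) R) (hQP : Q * P = 1)
    (hint : ∀ g, ρ g * P = P * ρ' g) (ε : G →* Rˣ) (hq : QuadAll ρ ε) : QuadAll ρ' ε := by
  intro g
  obtain ⟨a, ha⟩ := hq g
  refine ⟨a, ?_⟩
  have h1 : ρ' g = Q * ρ g * P := compress_eq ρ ρ' P Q hQP hint g
  have h2 : ρ' g * ρ' g = Q * (ρ g * ρ g) * P := by
    calc ρ' g * ρ' g = Q * ρ g * P * ρ' g := by rw [← h1]
      _ = Q * ρ g * (ρ g * P) := by rw [Matrix.mul_assoc (Q * ρ g), hint]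
      _ = Q * (ρ g * ρ g) * P := by simp only [Matrix.mul_assoc]
  have h3 : Q * (ρ g * ρ g - a • ρ g + (ε g : R) • (1 : Matrix (Fin r) (Fin r) R)) * P
      = ρ' g * ρ' g - a • ρ' g + (ε g : R) • (1 : Matrix (Fin d) (Fin d) R) := by
    rw [Matrix.mul_add, Matrix.mul_sub, Matrix.add_mul, Matrix.sub_mul, ← h2,
      Matrix.mul_smul, Matrix.smul_mul, ← h1, Matrix.mul_smul, Matrix.smul_mul, Matrix.mul_one,
      hQP]
  rw [← h3, ha, Matrix.mul_zero, Matrix.zero_mul]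

/-- Continuity passes to the compressed representation. -/
theorem matAdicCont_compress [IsLocalRing R] (ρ : GQ →* Matrix (Fin r) (Fin r) R)
    (ρ' : GQ →* Matrix (Fin d) (Fin d) R)
    (P : Matrix (Fin r) (Fin d) R) (Q : Matrix (Fin d) (Fin r) R) (hQP : Q * P = 1)
    (hint : ∀ g, ρ g * P = P * ρ' g) (h : MatAdicCont ρ) : MatAdicCont ρ' := by
  intro n
  obtain ⟨L, hL, hσ⟩ := h n
  refine ⟨L, hL, fun σ hfix i j => ?_⟩
  have e : ρ' σ - 1 = Q * (ρ σ - 1) * P := by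
    rw [Matrix.mul_sub, Matrix.sub_mul, Matrix.mul_one, hQP,
      ← compress_eq ρ ρ' P Q hQP hint σ]
  rw [e, Matrix.mul_apply]
  refine Ideal.sum_mem _ fun k _ => ?_
  apply Ideal.mul_mem_right
  rw [Matrix.mul_apply]
  exact Ideal.sum_mem _ fun l _ => Ideal.mul_mem_left _ _ (hσ σ hfix l k)

/-- A scalar compressed representation gives a stable line with its character. -/
theorem line_of_scalar [Nontrivial R] (hd : 0 < d) (ρ : G →* Matrix (Fin r) (Fin r) R)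
    (ρ' : G →* Matrix (Fin d) (Fin d) R)
    (P : Matrix (Fin r) (Fin d) R) (Q : Matrix (Fin d) (Fin r) R) (hQP : Q * P = 1)
    (hint : ∀ g, ρ g * P = P * ρ' g)
    (hsc : ∀ g, ∃ c : R, ρ' g = c • (1 : Matrix (Fin d) (Fin d) R)) :
    ∃ (ψ : G →* Rˣ) (v : Fin r → R), v ≠ 0 ∧ (∀ g, (ρ g).mulVec v = (ψ g : R) • v) ∧
      ∀ g, (ψ g : R) = ρ' g ⟨0, hd⟩ ⟨0, hd⟩ := by
  classical
  have hc : ∀ g, ρ' g = (ρ' g ⟨0, hd⟩ ⟨0, hd⟩) • (1 : Matrix (Fin d) (Fin d) R) := by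
    intro g
    obtain ⟨c, hc⟩ := hsc g
    have : ρ' g ⟨0, hd⟩ ⟨0, hd⟩ = c := by
      rw [hc]
      simp
    rw [this]
    exact hc
  let ψ₀ : G →* R :=
    { toFun := fun g => ρ' g ⟨0, hd⟩ ⟨0, hd⟩
      map_one' := by simp
      map_mul' := fun g h => by
        show ρ' (g * h) ⟨0, hd⟩ ⟨0, hd⟩ = ρ' g ⟨0, hd⟩ ⟨0, hd⟩ * ρ' h ⟨0, hd⟩ ⟨0, hd⟩
        rw [map_mul]
        nth_rewrite 1 [hc g]
        rw [Matrix.smul_mul, Matrix.one_mul, Matrix.smul_apply, smul_eq_mul] }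
  refine ⟨ψ₀.toHomUnits, fun i => P i ⟨0, hd⟩, ?_, ?_, fun g => rfl⟩
  · intro hv
    have h1 : (Q * P) ⟨0, hd⟩ ⟨0, hd⟩ = 0 := by
      rw [Matrix.mul_apply]
      refine Finset.sum_eq_zero fun i _ => ?_
      have := congrFun hv i
      simp only [Pi.zero_apply] at this
      rw [this, mul_zero]
    rw [hQP, Matrix.one_apply_eq] at h1
    exact one_ne_zero h1
  · intro g
    ext i
    have h1 : ((ρ g).mulVec fun i => P i ⟨0, hd⟩) i = (ρ g * P) i ⟨0, hd⟩ := by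
      rw [Matrix.mul_apply]
      rfl
    rw [h1, hint, hc g, Matrix.mul_smul, Matrix.mul_one, Matrix.smul_apply]
    rfl

end Transfer

section Maps

variable {R R' : Type} [CommRing R] [CommRing R'] {G : Type} [Group G] {r : ℕ}

/-- Quadratic relations pass to a base change. -/
theorem quadAll_map (φ : R →+* R') (ρ : G →* Matrix (Fin r) (Fin r) R)
    (ρ' : G →* Matrix (Fin r) (Fin r) R') (hρ' : ∀ g, ρ' g = (ρ g).map φ) (ε : G →* Rˣ)
    (h : QuadAll ρ ε) : QuadAll ρ' ((Units.map φ.toMonoidHom).comp ε) := by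
  intro g
  obtain ⟨a, ha⟩ := h g
  refine ⟨φ a, ?_⟩
  have hΦs : ∀ (c : R) (M : Matrix (Fin r) (Fin r) R),
      φ.mapMatrix (c • M) = φ c • φ.mapMatrix M := by
    intro c M
    ext i j
    simp
  have := congrArg (φ.mapMatrix : Matrix (Fin r) (Fin r) R →+* Matrix (Fin r) (Fin r) R') ha
  rw [map_add, map_sub, map_mul, hΦs, hΦs, map_one, map_zero] at this
  rw [hρ' g]
  exact this

/-- Continuity of a character passes to a base change along a local homomorphism. -/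
theorem charAdicCont_map [IsLocalRing R] [IsLocalRing R'] (φ : R →+* R') [IsLocalHom φ]
    (ε : GQ →* Rˣ) (h : CharAdicCont ε) :
    CharAdicCont ((Units.map φ.toMonoidHom).comp ε) := by
  intro n
  obtain ⟨L, hL, hσ⟩ := h n
  refine ⟨L, hL, fun σ hfix => ?_⟩
  have e : ((((Units.map φ.toMonoidHom).comp ε) σ : R'ˣ) : R') - 1 = φ ((ε σ : R) - 1) := by
    rw [map_sub, map_one]
    rfl
  rw [e]
  exact H2.map_mem_maximalIdeal_pow φ n (hσ σ hfix)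

end Maps

section Diag

variable {R : Type} [CommRing R] [IsLocalRing R]

/-- Continuity of `ψ ⊕ ε ψ⁻¹`. -/
theorem matAdicCont_diag (ψ ε : GQ →* Rˣ) (ρ₂ : GQ →* Matrix (Fin 2) (Fin 2) R)
    (hρ₂ : ∀ g, ρ₂ g = Matrix.diagonal ![(ψ g : R), ((ε g * (ψ g)⁻¹ : Rˣ) : R)])
    (hψ : CharAdicCont ψ) (hε : CharAdicCont ε) : MatAdicCont ρ₂ := by
  intro n
  obtain ⟨L₁, hL₁, h₁⟩ := hψ n
  obtain ⟨L₂, hL₂, h₂⟩ := hε n
  have := hL₁
  have := hL₂
  refine ⟨L₁ ⊔ L₂, IntermediateField.finiteDimensional_sup L₁ L₂, fun σ hfix i j => ?_⟩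
  have hf₁ := h₁ σ (fun x hx => hfix x ((le_sup_left : L₁ ≤ L₁ ⊔ L₂) hx))
  have hf₂ := h₂ σ (fun x hx => hfix x ((le_sup_right : L₂ ≤ L₁ ⊔ L₂) hx))
  rw [hρ₂ σ]
  have key : ((ε σ * (ψ σ)⁻¹ : Rˣ) : R) - 1
      = (((ψ σ)⁻¹ : Rˣ) : R) * (((ε σ : R) - 1) - ((ψ σ : R) - 1)) := by
    have h1 : (((ψ σ)⁻¹ : Rˣ) : R) * (ψ σ : R) = 1 := by
      rw [← Units.val_mul, inv_mul_cancel, Units.val_one]
    rw [Units.val_mul]
    linear_combination h1
  have hent : ∀ (dv : Fin 2 → R) (i j : Fin 2),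
      (Matrix.diagonal dv - 1) i j = if i = j then dv i - 1 else 0 := by
    intro dv i j
    by_cases h : i = j
    · subst h
      simp
    · simp [h, Matrix.one_apply_ne h]
  rw [hent]
  split_ifs with h
  · subst h
    fin_cases i
    · simpa using hf₁
    · show ((ε σ * (ψ σ)⁻¹ : Rˣ) : R) - 1 ∈ _
      rw [key]
      exact Ideal.mul_mem_left _ _ (Ideal.sub_mem _ hf₂ hf₁)
  · exact zero_mem _

end Diag

section Main

/-- The line case of the assembly: a character `ψ` on a stable line gives `ψ ⊕ ε ψ⁻¹`. -/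
theorem assemble_line {𝒪 𝒪'' : Type} [CommRing 𝒪] [CommRing 𝒪''] [IsLocalRing 𝒪]
    [IsLocalRing 𝒪''] [Algebra 𝒪 𝒪''] [IsLocalHom (algebraMap 𝒪 𝒪'')] {r : ℕ}
    (ρ : GQ →* Matrix (Fin r) (Fin r) 𝒪) (ε : GQ →* 𝒪ˣ) (hε : CharAdicCont ε)
    (ψ : GQ →* 𝒪''ˣ) (hψ : CharAdicCont ψ) (v : Fin r → 𝒪'') (hv : v ≠ 0)
    (hρv : ∀ g : GQ, ((ρ g).map (algebraMap 𝒪 𝒪'')).mulVec v = (ψ g : 𝒪'') • v) :
    ∃ ρ₂ : GQ →* Matrix (Fin 2) (Fin 2) 𝒪'', MatAdicCont ρ₂ ∧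
        (∀ g : GQ, (ρ₂ g).det = algebraMap 𝒪 𝒪'' (ε g : 𝒪)) ∧
        ((∃ (P : Matrix (Fin r) (Fin 2) 𝒪'') (Q : Matrix (Fin 2) (Fin r) 𝒪''),
            Q * P = 1 ∧ ∀ g : GQ, (ρ g).map (algebraMap 𝒪 𝒪'') * P = P * ρ₂ g) ∨
         (∃ (ψ : GQ →* 𝒪''ˣ) (v : Fin r → 𝒪''), v ≠ 0 ∧
            (∀ g : GQ, ((ρ g).map (algebraMap 𝒪 𝒪'')).mulVec v = (ψ g : 𝒪'') • v) ∧
            ∀ g : GQ, ρ₂ g =
              Matrix.diagonal ![(ψ g : 𝒪''),
                algebraMap 𝒪 𝒪'' (ε g : 𝒪) * (((ψ g)⁻¹ : 𝒪''ˣ) : 𝒪'')])) := by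
  set ε'' : GQ →* 𝒪''ˣ := (Units.map (algebraMap 𝒪 𝒪'').toMonoidHom).comp ε with hε''
  have hε''c : CharAdicCont ε'' := charAdicCont_map (algebraMap 𝒪 𝒪'') ε hε
  have hε''v : ∀ g, ((ε'' g : 𝒪''ˣ) : 𝒪'') = algebraMap 𝒪 𝒪'' (ε g : 𝒪) := fun g => rfl
  obtain ⟨ρ₂, hρ₂, -⟩ := Fermat.Agent.R.H89.stmt_CharSum 𝒪'' GQ ψ ε''
  refine ⟨ρ₂, matAdicCont_diag ψ ε'' ρ₂ hρ₂ hψ hε''c, ?_, Or.inr ⟨ψ, v, hv, hρv, ?_⟩⟩
  · intro g
    rw [hρ₂ g, Matrix.det_diagonal, Fin.prod_univ_two]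
    simp only [Matrix.cons_val_zero, Matrix.cons_val_one]
    rw [← hε''v g, ← Units.val_mul]
    congr 1
    rw [mul_comm, mul_assoc, inv_mul_cancel, mul_one]
  · intro g
    rw [hρ₂ g, Units.val_mul, hε''v g]

/-- **WP G4 (Assembly), structural form.** -/
theorem assembleS (h0 : Stmt_Step0) : Fermat.Agent.S35.Stmt_AssembleS := by
  intro 𝒪 _ _ _ _ _ _ S a r hr ρ ε hρ hε hES hcyc
  classical
  have hq : QuadAll ρ ε := h0 𝒪 S a r hr ρ ε hρ hε hES hcyc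
  -- base change to the fraction field
  obtain ⟨ρK, hρK⟩ : ∃ ρK : GQ →* Matrix (Fin r) (Fin r) (FractionRing 𝒪),
      ∀ g, ρK g = (ρ g).map (algebraMap 𝒪 (FractionRing 𝒪)) :=
    ⟨((algebraMap 𝒪 (FractionRing 𝒪)).mapMatrix :
      Matrix (Fin r) (Fin r) 𝒪 →+* Matrix (Fin r) (Fin r) (FractionRing 𝒪)).toMonoidHom.comp ρ,
      fun g => rfl⟩
  have hqK := quadAll_map (algebraMap 𝒪 (FractionRing 𝒪)) ρ ρK hρK ε hq
  have hcz : CharZero (FractionRing 𝒪) :=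
    charZero_of_injective_algebraMap (IsFractionRing.injective 𝒪 (FractionRing 𝒪))
  obtain ⟨K'', iF, iA, iFD, W, hW0, hWd, hWst⟩ :=
    smallPiece (FractionRing 𝒪) GQ r hr ρK _ hqK
  let iA2 : Algebra 𝒪 K'' :=
    ((algebraMap (FractionRing 𝒪) K'').comp (algebraMap 𝒪 (FractionRing 𝒪))).toAlgebra
  have iST : IsScalarTower 𝒪 (FractionRing 𝒪) K'' := IsScalarTower.of_algebraMap_eq (fun x => rfl)
  obtain ⟨𝒪'', i1, i2, i3, i4, i5, i6, i7, i8, i9, i10, i11, i12, hinj, -⟩ :=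
    Fermat.Agent.R.H2.exists_finiteExtDVR 𝒪 (FractionRing 𝒪) K''
  refine ⟨𝒪'', i1, i2, i3, i4, i5, i6, i7, i8, i9, hinj, ?_⟩
  -- the representation over `𝒪''`
  obtain ⟨ρ'', hρ'', hρ''c⟩ := H2.stmt_MapRep 𝒪 𝒪'' (algebraMap 𝒪 𝒪'') i9 r ρ hρ
  have hq'' := quadAll_map (algebraMap 𝒪 𝒪'') ρ ρ'' hρ'' ε hq
  have hε''c : CharAdicCont ((Units.map (algebraMap 𝒪 𝒪'').toMonoidHom).comp ε) :=
    charAdicCont_map (algebraMap 𝒪 𝒪'') ε hε
  have hWst'' : ∀ g : GQ, ∀ w ∈ W, ((ρ'' g).map (algebraMap 𝒪'' K'')).mulVec w ∈ W := by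
    intro g w hw
    have e : (ρ'' g).map (algebraMap 𝒪'' K'')
        = (ρK g).map (algebraMap (FractionRing 𝒪) K'') := by
      ext i j
      rw [hρ'', hρK]
      simp only [Matrix.map_apply]
      rw [← IsScalarTower.algebraMap_apply, ← IsScalarTower.algebraMap_apply]
    rw [e]
    exact hWst g w hw
  have hpos : 0 < Module.finrank K'' W := by
    rw [Module.finrank_pos_iff_exists_ne_zero]
    obtain ⟨w, hw, hw0⟩ := (Submodule.ne_bot_iff W).1 hW0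
    exact ⟨⟨w, hw⟩, fun h => hw0 (congrArg Subtype.val h)⟩
  obtain ⟨P, Q, ρd, hQP, hint⟩ := H2.stmt_Compress 𝒪'' K'' GQ r ρ'' W hWst''
  generalize hd : Module.finrank K'' W = d at P Q ρd hQP hint hWd hpos
  have hqd := quadAll_compress ρ'' ρd P Q hQP hint _ hq''
  have hcd := matAdicCont_compress ρ'' ρd P Q hQP hint hρ''c
  -- the scalar case
  have hline : (∀ g, ∃ c : 𝒪'', ρd g = c • (1 : Matrix (Fin d) (Fin d) 𝒪'')) →
      ∃ ρ₂ : GQ →* Matrix (Fin 2) (Fin 2) 𝒪'', MatAdicCont ρ₂ ∧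
        (∀ g : GQ, (ρ₂ g).det = algebraMap 𝒪 𝒪'' (ε g : 𝒪)) ∧
        ((∃ (P : Matrix (Fin r) (Fin 2) 𝒪'') (Q : Matrix (Fin 2) (Fin r) 𝒪''),
            Q * P = 1 ∧ ∀ g : GQ, (ρ g).map (algebraMap 𝒪 𝒪'') * P = P * ρ₂ g) ∨
         (∃ (ψ : GQ →* 𝒪''ˣ) (v : Fin r → 𝒪''), v ≠ 0 ∧
            (∀ g : GQ, ((ρ g).map (algebraMap 𝒪 𝒪'')).mulVec v = (ψ g : 𝒪'') • v) ∧
            ∀ g : GQ, ρ₂ g =
              Matrix.diagonal ![(ψ g : 𝒪''),
                algebraMap 𝒪 𝒪'' (ε g : 𝒪) * (((ψ g)⁻¹ : 𝒪''ˣ) : 𝒪'')])) := by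
    intro hsc
    obtain ⟨ψ, v, hv, hρv, hψ⟩ := line_of_scalar hpos ρ'' ρd P Q hQP hint hsc
    have hψc : CharAdicCont ψ := by
      intro n
      obtain ⟨L, hL, hσ⟩ := hcd n
      refine ⟨L, hL, fun σ hfix => ?_⟩
      have := hσ σ hfix ⟨0, hpos⟩ ⟨0, hpos⟩
      rw [Matrix.sub_apply, Matrix.one_apply_eq, ← hψ σ] at this
      exact this
    refine assemble_line ρ ε hε ψ hψc v hv ?_
    intro g
    rw [← hρ'' g]
    exact hρv g
  have hd12 : d = 1 ∨ d = 2 := by omega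
  rcases hd12 with rfl | rfl
  · -- rank one: everything is scalar
    refine hline (fun g => ⟨ρd g 0 0, ?_⟩)
    ext i j
    have hi : i = 0 := Subsingleton.elim _ _
    have hj : j = 0 := Subsingleton.elim _ _
    rw [hi, hj]
    simp
  · -- rank two: Lemma B
    rcases Fermat.Agent.R.H89.stmt_LemmaB 𝒪'' GQ ρd _ hqd with hdet | hsc
    · refine ⟨ρd, hcd, hdet, Or.inl ⟨P, Q, hQP, fun g => ?_⟩⟩
      rw [← hρ'' g]
      exact hint g
    · exact hline hsc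

/-- **WP G4**: Frobenius density gives the structural assembly. -/
theorem assembleS_of_FD (hFD : Fermat.Agent.R.Stmt_FD) : Fermat.Agent.S35.Stmt_AssembleS :=
  assembleS (H2.step0 hFD)

end Main

end Fermat.Agent.S30.H29
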