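import Fermat.Agent.S30.Defs

/-!
# S30 wiring, WP C (SmallPiece), helper29

Pure linear algebra.  `ρ : G →* M_r(K)`, `ε : G →* Kˣ`, every `ρ g` satisfies a monic quadratic
with constant term `ε g`.  Then over a finite extension of `K` there is a nonzero `G`-stable
subspace of dimension at most `2`.

Elementary proof (no Burnside, no algebraic closure):
* Clifford identity `ρ g ρ h + ρ h ρ g = a h ρ g + a g ρ h + c`;
* if some `x ∈ {ρ g, ρ g + ρ h}` has nonzero discriminant: over `K(√disc)` take an eigenvector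
  `v` of `x`; the compression of `ρ h` to each eigenspace of `x` is scalar, which bounds the
  dimension of a suitable cyclic subspace by `2`;
* otherwise the "traceless parts" `ρ g - a g / 2` square to zero and anticommute, hence have a
  common kernel vector, which spans a stable line.
-/

set_option autoImplicit false

open Matrix

namespace Fermat.Agent.S30.H29

section Clifford

variable {R : Type*} [CommRing R] {G : Type*} [Group G] {r : ℕ}

/-- The Clifford identity: from `(g h)⁻¹ = h⁻¹ g⁻¹` and the quadratic relations. -/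
theorem clifford_identity (ρ : G →* Matrix (Fin r) (Fin r) R) (ε : G →* Rˣ) (a : G → R)
    (ha : ∀ g, ρ g * ρ g - a g • ρ g + (ε g : R) • (1 : Matrix (Fin r) (Fin r) R) = 0)
    (g h : G) :
    ρ g * ρ h + ρ h * ρ g =
      a h • ρ g + a g • ρ h + (a (g * h) - a g * a h) • (1 : Matrix (Fin r) (Fin r) R) := by
  set X := ρ g with hX
  set Y := ρ h with hY
  have hXY : ρ (g * h) = X * Y := map_mul ρ g h
  have h1 : X * X = a g • X - (ε g : R) • (1 : Matrix (Fin r) (Fin r) R) := by
    have := ha g
    rw [← hX] at this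
    rw [← sub_eq_zero]
    rw [← this]
    abel
  have h2 : Y * Y = a h • Y - (ε h : R) • (1 : Matrix (Fin r) (Fin r) R) := by
    have := ha h
    rw [← hY] at this
    rw [← sub_eq_zero]
    rw [← this]
    abel
  have h3 : (X * Y) * (X * Y) = a (g * h) • (X * Y)
      - ((ε g : R) * (ε h : R)) • (1 : Matrix (Fin r) (Fin r) R) := by
    have := ha (g * h)
    rw [hXY, map_mul, Units.val_mul] at this
    rw [← sub_eq_zero]
    rw [← this]
    abel
  -- `X * Y * Z = 0` with `Z` the difference of the two sides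
  have hinv : ρ (g * h)⁻¹ * (X * Y) = 1 := by
    rw [← hXY, ← map_mul, inv_mul_cancel, map_one]
  have key : (X * Y) * (a (g * h) • (1 : Matrix (Fin r) (Fin r) R) - X * Y
      - (a h • (1 : Matrix (Fin r) (Fin r) R) - Y) * (a g • (1 : Matrix (Fin r) (Fin r) R) - X))
      = 0 := by
    have e1 : X * (a g • (1 : Matrix (Fin r) (Fin r) R) - X)
        = (ε g : R) • (1 : Matrix (Fin r) (Fin r) R) := by
      rw [mul_sub, h1]
      simp
    have e2 : Y * (a h • (1 : Matrix (Fin r) (Fin r) R) - Y)
        = (ε h : R) • (1 : Matrix (Fin r) (Fin r) R) := by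
      rw [mul_sub, h2]
      simp
    have e3 : (X * Y) * (a (g * h) • (1 : Matrix (Fin r) (Fin r) R) - X * Y)
        = ((ε g : R) * (ε h : R)) • (1 : Matrix (Fin r) (Fin r) R) := by
      rw [mul_sub, h3]
      simp
    have e4 : (X * Y) * ((a h • (1 : Matrix (Fin r) (Fin r) R) - Y)
        * (a g • (1 : Matrix (Fin r) (Fin r) R) - X))
        = ((ε g : R) * (ε h : R)) • (1 : Matrix (Fin r) (Fin r) R) := by
      rw [mul_assoc X Y, ← mul_assoc Y, e2]
      rw [smul_mul_assoc, one_mul, mul_smul_comm, e1, smul_smul, mul_comm]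
    rw [mul_sub, e3, e4, sub_self]
  have key2 : a (g * h) • (1 : Matrix (Fin r) (Fin r) R) - X * Y
      - (a h • (1 : Matrix (Fin r) (Fin r) R) - Y) * (a g • (1 : Matrix (Fin r) (Fin r) R) - X)
      = 0 := by
    have := congrArg (fun M => ρ (g * h)⁻¹ * M) key
    simp only [mul_zero] at this
    rwa [← mul_assoc, hinv, one_mul] at this
  -- expand
  have key3 := key2
  rw [sub_mul, mul_sub, mul_sub] at key3
  simp only [smul_mul_assoc, one_mul, mul_smul_comm, mul_one, smul_smul] at key3
  rw [sub_smul]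
  rw [← sub_eq_zero]
  rw [← neg_eq_zero]
  rw [← key3]
  rw [mul_comm (a g) (a h)]
  abel

end Clifford

section Core

variable {F : Type*} [Field F] {G : Type*} [Group G] {r : ℕ}

/-- The span of the orbit of a vector. -/
def orbitSpan (ρ : G →* Matrix (Fin r) (Fin r) F) (v : Fin r → F) : Submodule F (Fin r → F) :=
  Submodule.span F (Set.range fun h : G => (ρ h) *ᵥ v)

theorem mem_orbitSpan_self (ρ : G →* Matrix (Fin r) (Fin r) F) (v : Fin r → F) :
    v ∈ orbitSpan ρ v := by
  apply Submodule.subset_span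
  exact ⟨1, by simp⟩

theorem orbitSpan_stable (ρ : G →* Matrix (Fin r) (Fin r) F) (v : Fin r → F) (g : G)
    (w : Fin r → F) (hw : w ∈ orbitSpan ρ v) : ρ g *ᵥ w ∈ orbitSpan ρ v := by
  unfold orbitSpan at hw ⊢
  induction hw using Submodule.span_induction with
  | mem y hy =>
    obtain ⟨h, rfl⟩ := hy
    apply Submodule.subset_span
    exact ⟨g * h, by simp [map_mul]⟩
  | zero => simp
  | add y z _ _ hy hz =>
    rw [Matrix.mulVec_add]
    exact Submodule.add_mem _ hy hz
  | smul c y _ hy =>
    rw [Matrix.mulVec_smul]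
    exact Submodule.smul_mem _ c hy

theorem orbitSpan_le (ρ : G →* Matrix (Fin r) (Fin r) F) (v : Fin r → F)
    (W : Submodule F (Fin r → F)) (hW : ∀ g, ∀ w ∈ W, ρ g *ᵥ w ∈ W) (hv : v ∈ W) :
    orbitSpan ρ v ≤ W := by
  unfold orbitSpan
  rw [Submodule.span_le]
  rintro _ ⟨h, rfl⟩
  exact hW h v hv

/-- The compression of `ρ h` to an eigenspace of `x` is scalar. -/
theorem compress (ρ : G →* Matrix (Fin r) (Fin r) F) (a : G → F)
    (x : Matrix (Fin r) (Fin r) F) (τ : F)
    (hCI : ∀ h, ∃ c : F, x * ρ h + ρ h * x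
      = a h • x + τ • ρ h + c • (1 : Matrix (Fin r) (Fin r) F))
    (lam lam' : F) (hτ : τ = lam + lam') (v : Fin r → F) (hv : x *ᵥ v = lam • v) (h : G) :
    ∃ μ : F, (x - lam' • (1 : Matrix (Fin r) (Fin r) F)) *ᵥ (ρ h *ᵥ v) = μ • v := by
  obtain ⟨c, hc⟩ := hCI h
  refine ⟨a h * lam + c, ?_⟩
  have h1 : x * ρ h = a h • x + τ • ρ h + c • (1 : Matrix (Fin r) (Fin r) F) - ρ h * x := by
    rw [← hc]
    abel
  have h2 : x *ᵥ (ρ h *ᵥ v) = (a h * lam) • v + τ • (ρ h *ᵥ v) + c • v - lam • (ρ h *ᵥ v) := by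
    rw [Matrix.mulVec_mulVec, h1, Matrix.sub_mulVec, Matrix.add_mulVec, Matrix.add_mulVec,
      Matrix.smul_mulVec, Matrix.smul_mulVec, Matrix.smul_mulVec, Matrix.one_mulVec,
      ← Matrix.mulVec_mulVec, hv, Matrix.mulVec_smul, smul_smul]
  rw [Matrix.sub_mulVec, h2, Matrix.smul_mulVec, Matrix.one_mulVec, hτ]
  rw [add_smul, add_smul]
  abel

/-- Linear extension of `compress` to the orbit span. -/
theorem compress_span (ρ : G →* Matrix (Fin r) (Fin r) F) (a : G → F)
    (x : Matrix (Fin r) (Fin r) F) (τ : F)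
    (hCI : ∀ h, ∃ c : F, x * ρ h + ρ h * x
      = a h • x + τ • ρ h + c • (1 : Matrix (Fin r) (Fin r) F))
    (lam lam' : F) (hτ : τ = lam + lam') (v : Fin r → F) (hv : x *ᵥ v = lam • v)
    (w : Fin r → F) (hw : w ∈ orbitSpan ρ v) :
    ∃ μ : F, (x - lam' • (1 : Matrix (Fin r) (Fin r) F)) *ᵥ w = μ • v := by
  unfold orbitSpan at hw
  induction hw using Submodule.span_induction with
  | mem y hy =>
    obtain ⟨h, rfl⟩ := hy
    exact compress ρ a x τ hCI lam lam' hτ v hv h
  | zero => exact ⟨0, by simp⟩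
  | add y z _ _ hy hz =>
    obtain ⟨μ₁, h₁⟩ := hy
    obtain ⟨μ₂, h₂⟩ := hz
    exact ⟨μ₁ + μ₂, by rw [Matrix.mulVec_add, h₁, h₂, add_smul]⟩
  | smul c y _ hy =>
    obtain ⟨μ₁, h₁⟩ := hy
    exact ⟨c * μ₁, by rw [Matrix.mulVec_smul, h₁, smul_smul]⟩

theorem exists_mulVec_ne_zero {M : Matrix (Fin r) (Fin r) F} (hM : M ≠ 0) :
    ∃ u : Fin r → F, M *ᵥ u ≠ 0 := by
  by_contra hcon
  push Not at hcon
  apply hM
  ext i j
  have := congrFun (hcon (Pi.single j 1)) i
  simpa using this

theorem commute_sub_smul_one (x : Matrix (Fin r) (Fin r) F) (lam lam' : F) :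
    (x - lam' • (1 : Matrix (Fin r) (Fin r) F)) * (x - lam • (1 : Matrix (Fin r) (Fin r) F))
      = (x - lam • (1 : Matrix (Fin r) (Fin r) F)) * (x - lam' • (1 : Matrix (Fin r) (Fin r) F)) := by
  simp only [sub_mul, mul_sub, smul_mul_assoc, mul_smul_comm, one_mul, mul_one, smul_sub,
    smul_smul]
  rw [mul_comm lam lam']
  abel

/-- Core of WP C, assuming `x - lam' ≠ 0`. -/
theorem exists_stable_aux (ρ : G →* Matrix (Fin r) (Fin r) F) (a : G → F)
    (x : Matrix (Fin r) (Fin r) F) (τ : F)
    (hx : ∀ W : Submodule F (Fin r → F), (∀ g, ∀ w ∈ W, ρ g *ᵥ w ∈ W) → ∀ w ∈ W, x *ᵥ w ∈ W)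
    (hCI : ∀ h, ∃ c : F, x * ρ h + ρ h * x
      = a h • x + τ • ρ h + c • (1 : Matrix (Fin r) (Fin r) F))
    (lam lam' : F) (hne : lam ≠ lam') (hτ : τ = lam + lam')
    (hxx : (x - lam • (1 : Matrix (Fin r) (Fin r) F)) * (x - lam' • 1) = 0)
    (h0 : x - lam' • (1 : Matrix (Fin r) (Fin r) F) ≠ 0) :
    ∃ W : Submodule F (Fin r → F), W ≠ ⊥ ∧ Module.finrank F W ≤ 2 ∧
      ∀ g, ∀ w ∈ W, ρ g *ᵥ w ∈ W := by
  obtain ⟨u, hu⟩ := exists_mulVec_ne_zero h0
  set v := (x - lam' • (1 : Matrix (Fin r) (Fin r) F)) *ᵥ u with hvdef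
  have hv : x *ᵥ v = lam • v := by
    have : (x - lam • (1 : Matrix (Fin r) (Fin r) F)) *ᵥ v = 0 := by
      rw [hvdef, Matrix.mulVec_mulVec, hxx, Matrix.zero_mulVec]
    rw [Matrix.sub_mulVec, Matrix.smul_mulVec, Matrix.one_mulVec, sub_eq_zero] at this
    exact this
  have hd : lam - lam' ≠ 0 := sub_ne_zero.mpr hne
  set W := orbitSpan ρ v with hW
  have hWst : ∀ g, ∀ w ∈ W, ρ g *ᵥ w ∈ W := fun g w hw => orbitSpan_stable ρ v g w hw
  have hvW : v ∈ W := mem_orbitSpan_self ρ v
  have hsub : ∀ w : Fin r → F, (x - lam' • (1 : Matrix (Fin r) (Fin r) F)) *ᵥ w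
      - (x - lam • (1 : Matrix (Fin r) (Fin r) F)) *ᵥ w = (lam - lam') • w := by
    intro w
    simp only [Matrix.sub_mulVec, Matrix.smul_mulVec, Matrix.one_mulVec, sub_smul]
    abel
  by_cases hA : ∀ w ∈ W, (x - lam • (1 : Matrix (Fin r) (Fin r) F)) *ᵥ w = 0
  · -- `W` is the line spanned by `v`
    refine ⟨W, ?_, ?_, hWst⟩
    · intro hbot
      rw [hbot] at hvW
      exact hu ((Submodule.mem_bot F).1 hvW)
    · have hle : W ≤ Submodule.span F {v} := by
        intro w hw
        obtain ⟨μ, hμ⟩ := compress_span ρ a x τ hCI lam lam' hτ v hv w hw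
        have h1 := hsub w
        rw [hμ, hA w hw, sub_zero] at h1
        have : w = ((lam - lam')⁻¹ * μ) • v := by
          rw [← smul_smul, h1, smul_smul, inv_mul_cancel₀ hd, one_smul]
        rw [this]
        exact Submodule.smul_mem _ _ (Submodule.mem_span_singleton_self v)
      calc Module.finrank F W ≤ Module.finrank F (Submodule.span F {v}) :=
            Submodule.finrank_mono hle
        _ ≤ 1 := by
          classical
          have := finrank_span_finset_le_card (R := F) ({v} : Finset (Fin r → F))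
          rw [Set.finrank, Finset.coe_singleton, Finset.card_singleton] at this
          exact this
        _ ≤ 2 := by norm_num
  · push Not at hA
    obtain ⟨w₀, hw₀, hw₀ne⟩ := hA
    set w := (x - lam • (1 : Matrix (Fin r) (Fin r) F)) *ᵥ w₀ with hwdef
    have hwW : w ∈ W := by
      rw [hwdef, Matrix.sub_mulVec, Matrix.smul_mulVec, Matrix.one_mulVec]
      exact Submodule.sub_mem _ (hx W hWst w₀ hw₀) (Submodule.smul_mem _ _ hw₀)
    have hw : x *ᵥ w = lam' • w := by
      have : (x - lam' • (1 : Matrix (Fin r) (Fin r) F)) *ᵥ w = 0 := by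
        rw [hwdef, Matrix.mulVec_mulVec, commute_sub_smul_one, hxx, Matrix.zero_mulVec]
      rw [Matrix.sub_mulVec, Matrix.smul_mulVec, Matrix.one_mulVec, sub_eq_zero] at this
      exact this
    set W' := orbitSpan ρ w with hW'
    have hW'W : W' ≤ W := orbitSpan_le ρ w W hWst hwW
    refine ⟨W', ?_, ?_, fun g z hz => orbitSpan_stable ρ w g z hz⟩
    · intro hbot
      have := mem_orbitSpan_self ρ w
      rw [← hW', hbot] at this
      exact hw₀ne ((Submodule.mem_bot F).1 this)
    · have hle : W' ≤ Submodule.span F {v, w} := by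
        intro z hz
        obtain ⟨μ, hμ⟩ := compress_span ρ a x τ hCI lam lam' hτ v hv z (hW'W hz)
        obtain ⟨μ', hμ'⟩ := compress_span ρ a x τ hCI lam' lam (by rw [hτ, add_comm]) w hw z hz
        have h1 := hsub z
        rw [hμ, hμ'] at h1
        have : z = ((lam - lam')⁻¹ * μ) • v - ((lam - lam')⁻¹ * μ') • w := by
          rw [← smul_smul, ← smul_smul, ← smul_sub, h1, smul_smul, inv_mul_cancel₀ hd, one_smul]
        rw [this]
        refine Submodule.sub_mem _ (Submodule.smul_mem _ _ ?_) (Submodule.smul_mem _ _ ?_)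
        · exact Submodule.subset_span (by simp)
        · exact Submodule.subset_span (by simp)
      calc Module.finrank F W' ≤ Module.finrank F (Submodule.span F {v, w}) :=
            Submodule.finrank_mono hle
        _ ≤ 2 := by
          classical
          have := finrank_span_finset_le_card (R := F) ({v, w} : Finset (Fin r → F))
          have hc : ({v, w} : Finset (Fin r → F)).card ≤ 2 := Finset.card_le_two
          rw [Set.finrank, Finset.coe_pair] at this
          exact this.trans hc

/-- Core of WP C: a matrix `x` with two distinct eigenvalues, satisfying the Clifford identity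
with all `ρ h` and preserving the stable subspaces, produces a stable subspace of dimension
`≤ 2`. -/
theorem exists_stable_of_split (hr : 0 < r) (ρ : G →* Matrix (Fin r) (Fin r) F) (a : G → F)
    (x : Matrix (Fin r) (Fin r) F) (τ : F)
    (hx : ∀ W : Submodule F (Fin r → F), (∀ g, ∀ w ∈ W, ρ g *ᵥ w ∈ W) → ∀ w ∈ W, x *ᵥ w ∈ W)
    (hCI : ∀ h, ∃ c : F, x * ρ h + ρ h * x
      = a h • x + τ • ρ h + c • (1 : Matrix (Fin r) (Fin r) F))
    (lam lam' : F) (hne : lam ≠ lam') (hτ : τ = lam + lam')
    (hxx : (x - lam • (1 : Matrix (Fin r) (Fin r) F)) * (x - lam' • 1) = 0) :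
    ∃ W : Submodule F (Fin r → F), W ≠ ⊥ ∧ Module.finrank F W ≤ 2 ∧
      ∀ g, ∀ w ∈ W, ρ g *ᵥ w ∈ W := by
  by_cases h0 : x - lam' • (1 : Matrix (Fin r) (Fin r) F) = 0
  · have h1 : x - lam • (1 : Matrix (Fin r) (Fin r) F) ≠ 0 := by
      intro h
      have h2 : (lam - lam') • (1 : Matrix (Fin r) (Fin r) F) = 0 := by
        have : (x - lam' • (1 : Matrix (Fin r) (Fin r) F)) - (x - lam • 1) = 0 := by
          rw [h0, h, sub_zero]
        rw [← this, sub_smul]
        abel
      have h3 := congrFun (congrFun h2 ⟨0, hr⟩) ⟨0, hr⟩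
      simp only [Matrix.smul_apply, Matrix.one_apply_eq, smul_eq_mul, mul_one,
        Matrix.zero_apply] at h3
      exact hne (sub_eq_zero.mp h3)
    exact exists_stable_aux ρ a x τ hx hCI lam' lam hne.symm (by rw [hτ, add_comm])
      (by rw [h0, zero_mul]) h1
  · exact exists_stable_aux ρ a x τ hx hCI lam lam' hne hτ hxx h0

/-- A family of pairwise anticommuting matrices of square zero has a common kernel vector
(finite list version). -/
theorem exists_common_kernel_list (hr : 0 < r) {ι : Type*} (ν : ι → Matrix (Fin r) (Fin r) F)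
    (hsq : ∀ i, ν i * ν i = 0) (hanti : ∀ i j, ν i * ν j = -(ν j * ν i)) (l : List ι) :
    ∃ v : Fin r → F, v ≠ 0 ∧ ∀ i ∈ l, ν i *ᵥ v = 0 := by
  induction l with
  | nil =>
    refine ⟨Pi.single ⟨0, hr⟩ 1, ?_, by simp⟩
    intro h
    have := congrFun h ⟨0, hr⟩
    simp at this
  | cons i l ih =>
    obtain ⟨v, hv, hl⟩ := ih
    by_cases hi : ν i *ᵥ v = 0
    · refine ⟨v, hv, ?_⟩
      intro j hj
      rcases List.mem_cons.mp hj with rfl | hj
      · exact hi
      · exact hl j hj
    · refine ⟨ν i *ᵥ v, hi, ?_⟩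
      intro j hj
      rcases List.mem_cons.mp hj with rfl | hj
      · rw [Matrix.mulVec_mulVec, hsq, Matrix.zero_mulVec]
      · rw [Matrix.mulVec_mulVec, hanti, Matrix.neg_mulVec, ← Matrix.mulVec_mulVec, hl j hj,
          Matrix.mulVec_zero, neg_zero]

/-- A family of pairwise anticommuting matrices of square zero has a common kernel vector. -/
theorem exists_common_kernel (hr : 0 < r) {ι : Type*} (ν : ι → Matrix (Fin r) (Fin r) F)
    (hsq : ∀ i, ν i * ν i = 0) (hanti : ∀ i j, ν i * ν j = -(ν j * ν i)) :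
    ∃ v : Fin r → F, v ≠ 0 ∧ ∀ i, ν i *ᵥ v = 0 := by
  classical
  rcases isEmpty_or_nonempty ι with hι | hι
  · obtain ⟨v, hv, -⟩ := exists_common_kernel_list hr ν hsq hanti []
    exact ⟨v, hv, fun i => isEmptyElim i⟩
  have hfg : (Submodule.span F (Set.range ν)).FG := IsNoetherian.noetherian _
  obtain ⟨t, ht, hspan⟩ := (Submodule.fg_span_iff_fg_span_finset_subset (Set.range ν)).1 hfg
  -- choose indices for the elements of `t`
  have hidx : ∀ M ∈ t, ∃ i, ν i = M := fun M hM => ht hM
  choose! idx hidx' using hidx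
  obtain ⟨v, hv, hl⟩ := exists_common_kernel_list hr ν hsq hanti (t.toList.map idx)
  refine ⟨v, hv, fun i => ?_⟩
  -- the matrices killing `v` form a submodule
  let Z : Submodule F (Matrix (Fin r) (Fin r) F) :=
    { carrier := {M | M *ᵥ v = 0}
      add_mem' := fun {A B} hA hB => by
        have hA' : A *ᵥ v = 0 := hA
        have hB' : B *ᵥ v = 0 := hB
        show (A + B) *ᵥ v = 0
        rw [Matrix.add_mulVec, hA', hB', add_zero]
      zero_mem' := by
        show (0 : Matrix (Fin r) (Fin r) F) *ᵥ v = 0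
        simp
      smul_mem' := fun c A hA => by
        have hA' : A *ᵥ v = 0 := hA
        show (c • A) *ᵥ v = 0
        rw [Matrix.smul_mulVec, hA', smul_zero] }
  have htZ : (↑t : Set (Matrix (Fin r) (Fin r) F)) ⊆ Z := by
    intro M hM
    have hM' : M ∈ t := hM
    have : ν (idx M) *ᵥ v = 0 :=
      hl (idx M) (List.mem_map.mpr ⟨M, Finset.mem_toList.mpr hM', rfl⟩)
    rw [hidx' M hM'] at this
    exact this
  have hle : Submodule.span F (Set.range ν) ≤ Z := by
    rw [hspan]
    exact Submodule.span_le.mpr htZ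
  exact hle (Submodule.subset_span ⟨i, rfl⟩)

end Core

section Final

variable {K : Type} [Field K] [CharZero K] {G : Type} [Group G] {r : ℕ}

omit [CharZero K] in
theorem map_smul_matrix {K'' : Type} [Field K''] (φ : K →+* K'') (c : K)
    (M : Matrix (Fin r) (Fin r) K) : (c • M).map φ = φ c • M.map φ := by
  ext i j
  simp

/-- Base change of a matrix representation. -/
def baseChangeRep (K'' : Type) [Field K''] [Algebra K K''] (ρ : G →* Matrix (Fin r) (Fin r) K) :
    G →* Matrix (Fin r) (Fin r) K'' :=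
  ((algebraMap K K'').mapMatrix :
    Matrix (Fin r) (Fin r) K →+* Matrix (Fin r) (Fin r) K'').toMonoidHom.comp ρ

omit [CharZero K] in
theorem baseChangeRep_apply (K'' : Type) [Field K''] [Algebra K K'']
    (ρ : G →* Matrix (Fin r) (Fin r) K) (g : G) :
    baseChangeRep K'' ρ g = (ρ g).map (algebraMap K K'') := rfl

omit [CharZero K] in
/-- A finite extension containing a square root of `d`. -/
theorem exists_sqrt_ext (d : K) :
    ∃ (K'' : Type) (_ : Field K'') (_ : Algebra K K'') (_ : FiniteDimensional K K'')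
      (δ : K''), δ ^ 2 = algebraMap K K'' d := by
  classical
  have hdeg : ((Polynomial.X ^ 2 - Polynomial.C d : Polynomial K).map
      (algebraMap K (Polynomial.X ^ 2 - Polynomial.C d : Polynomial K).SplittingField)).degree
        ≠ 0 := by
    have h2 : (Polynomial.X ^ 2 - Polynomial.C d : Polynomial K).degree = 2 :=
      Polynomial.degree_X_pow_sub_C (by norm_num) _
    rw [Polynomial.degree_map, h2]
    norm_num
  obtain ⟨δ, hδ⟩ := (Polynomial.SplittingField.splits
    (Polynomial.X ^ 2 - Polynomial.C d : Polynomial K)).exists_eval_eq_zero hdeg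
  refine ⟨(Polynomial.X ^ 2 - Polynomial.C d : Polynomial K).SplittingField, inferInstance,
    inferInstance, inferInstance, δ, ?_⟩
  simp only [Polynomial.map_sub, Polynomial.map_pow, Polynomial.map_X, Polynomial.map_C,
    Polynomial.eval_sub, Polynomial.eval_pow, Polynomial.eval_X, Polynomial.eval_C] at hδ
  exact sub_eq_zero.mp hδ

/-- A matrix with nonzero discriminant satisfying the Clifford identity with all `ρ h` gives a
stable subspace of dimension `≤ 2` over the splitting field of `X² - disc`. -/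
theorem exists_stable_of_disc (hr : 0 < r) (ρ : G →* Matrix (Fin r) (Fin r) K) (a : G → K)
    (x : Matrix (Fin r) (Fin r) K) (τ n : K)
    (hxq : x * x = τ • x - n • (1 : Matrix (Fin r) (Fin r) K))
    (hdisc : τ ^ 2 - 4 * n ≠ 0)
    (hxCI : ∀ h, ∃ c : K, x * ρ h + ρ h * x
      = a h • x + τ • ρ h + c • (1 : Matrix (Fin r) (Fin r) K))
    (hxst : ∀ (K'' : Type) [Field K''] [Algebra K K''] (W : Submodule K'' (Fin r → K'')),
      (∀ g, ∀ w ∈ W, ((ρ g).map (algebraMap K K'')) *ᵥ w ∈ W) →
        ∀ w ∈ W, (x.map (algebraMap K K'')) *ᵥ w ∈ W) :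
    ∃ (K'' : Type) (_ : Field K'') (_ : Algebra K K'') (_ : FiniteDimensional K K'')
      (W : Submodule K'' (Fin r → K'')),
      W ≠ ⊥ ∧ Module.finrank K'' W ≤ 2 ∧
        ∀ g : G, ∀ w ∈ W, ((ρ g).map (algebraMap K K'')).mulVec w ∈ W := by
  classical
  obtain ⟨K'', iF, iA, iFD, δ, hδ2⟩ := exists_sqrt_ext (τ ^ 2 - 4 * n)
  let φ : K →+* K'' := algebraMap K K''
  change δ ^ 2 = φ (τ ^ 2 - 4 * n) at hδ2
  have hδ0 : δ ≠ 0 := by
    intro h
    rw [h, zero_pow (by norm_num)] at hδ2
    exact hdisc ((map_eq_zero φ).1 hδ2.symm)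
  have h2ne : (2 : K'') ≠ 0 := by
    have hcz : CharZero K'' := charZero_of_injective_algebraMap (algebraMap K K'').injective
    exact two_ne_zero
  set lam : K'' := (φ τ + δ) / 2 with hlam
  set lam' : K'' := (φ τ - δ) / 2 with hlam'
  have hne : lam ≠ lam' := by
    intro h
    apply hδ0
    have : lam - lam' = δ := by
      rw [hlam, hlam']
      field_simp
      ring
    rw [← this, h, sub_self]
  have hτ : φ τ = lam + lam' := by
    rw [hlam, hlam']
    field_simp
    ring
  have hprod : lam * lam' = φ n := by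
    have h4 : (4 : K'') * (lam * lam') = 4 * φ n := by
      have : (4 : K'') * (lam * lam') = φ τ ^ 2 - δ ^ 2 := by
        rw [hlam, hlam']
        field_simp
        ring
      rw [this, hδ2]
      simp only [map_sub, map_pow, map_mul, map_ofNat]
      ring
    have h4ne : (4 : K'') ≠ 0 := by
      have : (4 : K'') = 2 * 2 := by norm_num
      rw [this]
      exact mul_ne_zero h2ne h2ne
    exact mul_left_cancel₀ h4ne h4
  set x'' : Matrix (Fin r) (Fin r) K'' := x.map φ with hx''
  have hΦs : ∀ (c : K) (M : Matrix (Fin r) (Fin r) K),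
      φ.mapMatrix (c • M) = φ c • φ.mapMatrix M := by
    intro c M
    ext i j
    simp
  have hxq'' : x'' * x'' = φ τ • x'' - φ n • (1 : Matrix (Fin r) (Fin r) K'') := by
    have := congrArg (φ.mapMatrix : Matrix (Fin r) (Fin r) K →+* Matrix (Fin r) (Fin r) K'') hxq
    rw [map_mul, map_sub, hΦs, hΦs, map_one] at this
    exact this
  have hxx : (x'' - lam • (1 : Matrix (Fin r) (Fin r) K'')) * (x'' - lam' • 1) = 0 := by
    simp only [sub_mul, mul_sub, smul_mul_assoc, mul_smul_comm, one_mul, mul_one, smul_sub,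
      smul_smul]
    rw [hxq'', hτ, mul_comm lam' lam, hprod, add_smul]
    abel
  have hCI'' : ∀ h, ∃ c : K'', x'' * baseChangeRep K'' ρ h + baseChangeRep K'' ρ h * x''
      = (φ (a h)) • x'' + φ τ • baseChangeRep K'' ρ h + c • (1 : Matrix (Fin r) (Fin r) K'') := by
    intro h
    obtain ⟨c, hc⟩ := hxCI h
    refine ⟨φ c, ?_⟩
    have := congrArg (φ.mapMatrix : Matrix (Fin r) (Fin r) K →+* Matrix (Fin r) (Fin r) K'') hc
    rw [map_add, map_add, map_add, map_mul, map_mul, hΦs, hΦs, hΦs, map_one] at this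
    exact this
  obtain ⟨W, hW0, hWd, hWst⟩ := exists_stable_of_split hr (baseChangeRep K'' ρ)
    (fun h => φ (a h)) x'' (φ τ) (fun W hW => hxst K'' W hW) hCI'' lam lam' hne hτ hxx
  exact ⟨K'', iF, iA, iFD, W, hW0, hWd, hWst⟩

/-- **WP C (SmallPiece).** -/
theorem smallPiece : Stmt_SmallPiece := by
  intro K _ _ G _ r hr ρ ε hq
  classical
  choose a ha using hq
  have hCI := clifford_identity ρ ε a ha
  have hsq : ∀ g, ρ g * ρ g = a g • ρ g - (ε g : K) • (1 : Matrix (Fin r) (Fin r) K) := by
    intro g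
    rw [← sub_eq_zero, ← ha g]
    abel
  by_cases h1 : ∃ g, a g ^ 2 - 4 * (ε g : K) ≠ 0
  · obtain ⟨g, hg⟩ := h1
    refine exists_stable_of_disc hr ρ a (ρ g) (a g) (ε g) (hsq g) hg ?_ ?_
    · intro h
      exact ⟨a (g * h) - a g * a h, hCI g h⟩
    · intro K'' _ _ W hW w hw
      exact hW g w hw
  · push Not at h1
    by_cases h2 : ∃ g h, a (g * h) - a g * a h / 2 ≠ 0
    · obtain ⟨g, h, hs⟩ := h2
      refine exists_stable_of_disc hr ρ a (ρ g + ρ h) (a g + a h)
        ((ε g : K) + (ε h : K) - (a (g * h) - a g * a h)) ?_ ?_ ?_ ?_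
      · -- the quadratic relation of `x`
        have e : (ρ g + ρ h) * (ρ g + ρ h)
            = ρ g * ρ g + ρ h * ρ h + (ρ g * ρ h + ρ h * ρ g) := by
          rw [add_mul, mul_add, mul_add]
          abel
        rw [e, hsq g, hsq h, hCI g h]
        simp only [add_smul, sub_smul, smul_add]
        abel
      · -- the discriminant
        have e : (a g + a h) ^ 2 - 4 * ((ε g : K) + (ε h : K) - (a (g * h) - a g * a h))
            = (a g ^ 2 - 4 * (ε g : K)) + (a h ^ 2 - 4 * (ε h : K))
              + 4 * (a (g * h) - a g * a h / 2) := by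
          ring
        rw [e, h1 g, h1 h, zero_add, zero_add]
        exact mul_ne_zero (by norm_num) hs
      · intro k
        refine ⟨(a (g * k) - a g * a k) + (a (h * k) - a h * a k), ?_⟩
        have e : (ρ g + ρ h) * ρ k + ρ k * (ρ g + ρ h)
            = (ρ g * ρ k + ρ k * ρ g) + (ρ h * ρ k + ρ k * ρ h) := by
          rw [add_mul, mul_add]
          abel
        rw [e, hCI g k, hCI h k]
        simp only [add_smul, smul_add]
        abel
      · intro K'' _ _ W hW w hw
        rw [Matrix.map_add (f := algebraMap K K'') (map_add _), Matrix.add_mulVec]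
        exact W.add_mem (hW g w hw) (hW h w hw)
    · push Not at h2
      have h2ne : (2 : K) ≠ 0 := two_ne_zero
      have hνsq : ∀ g, (ρ g - (a g / 2) • (1 : Matrix (Fin r) (Fin r) K))
          * (ρ g - (a g / 2) • (1 : Matrix (Fin r) (Fin r) K)) = 0 := by
        intro g
        have e : (ρ g - (a g / 2) • (1 : Matrix (Fin r) (Fin r) K))
            * (ρ g - (a g / 2) • (1 : Matrix (Fin r) (Fin r) K))
            = ρ g * ρ g - a g • ρ g + (a g ^ 2 / 4) • (1 : Matrix (Fin r) (Fin r) K) := by
          simp only [sub_mul, mul_sub, smul_mul_assoc, mul_smul_comm, one_mul, mul_one]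
          module
        rw [e, hsq g]
        have e3 : a g ^ 2 / 4 = (ε g : K) := by
          have := h1 g
          field_simp
          linear_combination this
        rw [e3]
        abel
      have hνanti : ∀ g h, (ρ g - (a g / 2) • (1 : Matrix (Fin r) (Fin r) K))
          * (ρ h - (a h / 2) • (1 : Matrix (Fin r) (Fin r) K))
          = -((ρ h - (a h / 2) • (1 : Matrix (Fin r) (Fin r) K))
            * (ρ g - (a g / 2) • (1 : Matrix (Fin r) (Fin r) K))) := by
        intro g h
        rw [eq_neg_iff_add_eq_zero]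
        have e : (ρ g - (a g / 2) • (1 : Matrix (Fin r) (Fin r) K))
            * (ρ h - (a h / 2) • (1 : Matrix (Fin r) (Fin r) K))
            + (ρ h - (a h / 2) • (1 : Matrix (Fin r) (Fin r) K))
            * (ρ g - (a g / 2) • (1 : Matrix (Fin r) (Fin r) K))
            = (ρ g * ρ h + ρ h * ρ g) - a h • ρ g - a g • ρ h
              + (a g * a h / 2) • (1 : Matrix (Fin r) (Fin r) K) := by
          simp only [sub_mul, mul_sub, smul_mul_assoc, mul_smul_comm, one_mul, mul_one]
          module
        rw [e, hCI g h]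
        have e3 : a (g * h) - a g * a h = -(a g * a h / 2) := by
          have := h2 g h
          linear_combination this
        rw [e3, neg_smul]
        abel
      obtain ⟨v, hv, hker⟩ := exists_common_kernel hr
        (fun g => ρ g - (a g / 2) • (1 : Matrix (Fin r) (Fin r) K)) hνsq hνanti
      have hρv : ∀ g, ρ g *ᵥ v = (a g / 2) • v := by
        intro g
        have := hker g
        simp only [Matrix.sub_mulVec, Matrix.smul_mulVec, Matrix.one_mulVec] at this
        exact sub_eq_zero.mp this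
      refine ⟨K, inferInstance, Algebra.id K, inferInstance, Submodule.span K {v}, ?_, ?_, ?_⟩
      · intro h
        exact hv ((Submodule.span_singleton_eq_bot).1 h)
      · rw [finrank_span_singleton hv]
        norm_num
      · intro g w hw
        have hmap : (ρ g).map (algebraMap K K) = ρ g := by
          ext i j
          simp
        rw [hmap]
        obtain ⟨c, rfl⟩ := Submodule.mem_span_singleton.1 hw
        rw [Matrix.mulVec_smul, hρv g, smul_comm]
        exact Submodule.smul_mem _ _ (Submodule.smul_mem _ _ (Submodule.mem_span_singleton_self v))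

end Final

end Fermat.Agent.S30.H29

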