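import Fermat.Agent.S30.H29_Assemble
import Fermat.Agent.S35.H89_Transfer
import Fermat.Agent.R.H89_CycChar

/-!
# S30 wiring, final step (helper29)

`stmt_S30_of : Stmt_TatePiece → Fermat.Agent.R.Stmt_FD → Fermat.Agent.R.Stmt_S30`.

So the frozen statement S30 follows from the two remaining inputs:
* `Stmt_TatePiece` (cluster G: the Eichler–Shimura piece of the Tate module of `J₀(N)`), and
* `Fermat.Agent.R.Stmt_FD` (Frobenius density, item 61).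
-/

set_option autoImplicit false

open Polynomial

namespace Fermat.Agent.S30.H29

open Fermat.Agent.S30 Fermat.Agent.R

/-- S30 from the Tate piece and the assembly. -/
theorem stmt_S30_of_assemble (hT : Stmt_TatePiece) (hA : Stmt_Assemble) : Stmt_S30 := by
  intro p _ N _ S hpS hNS 𝒪' _ _ _ _ _ _ hp χ
  classical
  obtain ⟨r, ρ, hr, hc, hES, hun⟩ := hT p N S hpS hNS 𝒪' hp χ
  obtain ⟨ε, hεc, hεcyc, hεun⟩ := Fermat.Agent.R.H89.stmt_CycChar p 𝒪' hp S hpS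
  -- the Hecke eigenvalues as a function on `ℕ`
  let a : ℕ → 𝒪' := fun ℓ =>
    if h : ℓ.Prime ∧ ¬ ℓ ∣ N ∧ ℓ ∉ (↑S : Set ℕ) then
      χ (CuspForm.heckeAlgebra.T h.1 h.2.1 h.2.2) else 0
  have ha : ∀ (ℓ : ℕ) (hℓ : ℓ.Prime) (hℓN : ¬ ℓ ∣ N) (hℓS : ℓ ∉ (↑S : Set ℕ)),
      a ℓ = χ (CuspForm.heckeAlgebra.T hℓ hℓN hℓS) := by
    intro ℓ hℓ hℓN hℓS
    simp only [a]
    rw [dif_pos ⟨hℓ, hℓN, hℓS⟩]
  have hMES : MatES ρ a S := by
    intro ℓ hℓ hℓS A hA' σ hσ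
    have hℓN : ¬ ℓ ∣ N := fun hd => hℓS (hNS ℓ hℓ hd)
    have hℓS' : ℓ ∉ (↑S : Set ℕ) := fun hm => hℓS (Finset.mem_coe.mp hm)
    rw [ha ℓ hℓ hℓN hℓS']
    exact hES ℓ hℓ hℓN hℓS' A hA' σ hσ
  obtain ⟨𝒪'', i1, i2, i3, i4, i5, i6, i7, i8, i9, hinj, ρ'', h1, h2, -⟩ :=
    hA 𝒪' S a r hr ρ ε hc hεc hMES hεcyc
  refine ⟨𝒪'', i1, i2, i3, i4, i5, i6, i7, i8, i9, hinj, ρ'', ?_, ?_⟩
  · intro ℓ hℓ hℓN hℓS A hA' σ hσ
    have hℓS' : ℓ ∉ S := fun hm => hℓS (Finset.mem_coe.mpr hm)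
    rw [h1 ℓ hℓ hℓS' A hA' σ hσ, ha ℓ hℓ hℓN hℓS]
  · intro q hq hqN hqp P hP σ hσ
    exact h2 σ (hun q hq hqN hqp P hP σ hσ) (hεun q hq hqp P hP σ hσ)

/-- The assembly statement from Frobenius density. -/
theorem stmt_Assemble_of_FD (hFD : Stmt_FD) : Stmt_Assemble :=
  Fermat.Agent.S35.assemble_of_assembleX
    (Fermat.Agent.S35.assembleX_of_assembleS (assembleS_of_FD hFD))

/-- **S30 from the Tate piece and Frobenius density.** -/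
theorem stmt_S30_of (hT : Stmt_TatePiece) (hFD : Stmt_FD) : Stmt_S30 :=
  stmt_S30_of_assemble hT (stmt_Assemble_of_FD hFD)

end Fermat.Agent.S30.H29
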