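import Mathlib.Algebra.Algebra.Basic
import Mathlib.Tactic.Abel
import Mathlib.Tactic.Ring

/-!
# Lucas relation in an algebra (helper56; for S30 WP B Step0, owner helper2)

`lucas_relation`: in an `R`-algebra `B` (not necessarily commutative), if
`x * x - a • x + d • 1 = 0` then `x ^ j * x ^ j - lucV a d j • x ^ j + d ^ j • 1 = 0`, where
`lucV a d` is the Lucas sequence `V₀ = 2, V₁ = a, V_{j+2} = a V_{j+1} - d V_j`.
-/

set_option autoImplicit false
set_option linter.style.haveILetI false
set_option linter.unusedSectionVars false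

namespace Fermat.Agent.S30.H56

/-! ### Lucas sequences in an algebra -/

section Lucas

variable {R : Type*} [CommRing R]

/-- The Lucas sequence `V_j(a, d)`: `V₀ = 2`, `V₁ = a`, `V_{j+2} = a V_{j+1} - d V_j`. -/
def lucV (a d : R) : ℕ → R
  | 0 => 2
  | 1 => a
  | (j + 2) => a * lucV a d (j + 1) - d * lucV a d j

variable {B : Type*} [Ring B] [Algebra R B]

lemma pow_add_pow_conj {a d : R} {x : B} (hx : x * x - a • x + d • (1 : B) = 0) (j : ℕ) :
    x ^ j + (a • (1 : B) - x) ^ j = lucV a d j • (1 : B) := by
  set y : B := a • (1 : B) - x with hy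
  have hxy : x * y = d • (1 : B) := by
    rw [hy, mul_sub, mul_smul_comm, mul_one]
    have : a • x - x * x = d • (1 : B) := by
      have h := hx
      rw [sub_add_eq_add_sub, sub_eq_zero] at h
      rw [← h]; abel
    exact this
  have hyx : y * x = d • (1 : B) := by
    rw [hy, sub_mul, smul_mul_assoc, one_mul]
    have : a • x - x * x = d • (1 : B) := by
      have h := hx
      rw [sub_add_eq_add_sub, sub_eq_zero] at h
      rw [← h]; abel
    exact this
  have hsum : x + y = a • (1 : B) := by rw [hy]; abel
  induction j using Nat.strong_induction_on with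
  | _ j ih =>
    match j with
    | 0 =>
      simp only [pow_zero, lucV]
      rw [← one_add_one_eq_two, add_smul, one_smul]
    | 1 =>
      simp only [pow_one, lucV]
      exact hsum
    | (j + 2) =>
      have h1 := ih (j + 1) (by omega)
      have h0 := ih j (by omega)
      have key : x ^ (j + 2) + y ^ (j + 2)
          = (x + y) * (x ^ (j + 1) + y ^ (j + 1)) - (x * y) * (x ^ j + y ^ j) := by
        have e1 : x * y * x ^ j = y * x ^ (j + 1) := by
          rw [hxy, ← hyx, mul_assoc, ← pow_succ']
        have e2 : x * y * y ^ j = x * y ^ (j + 1) := by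
          rw [mul_assoc, ← pow_succ']
        rw [add_mul, mul_add, mul_add, mul_add, e1, e2, ← pow_succ', ← pow_succ']
        abel
      rw [key, h1, h0, hsum, hxy]
      simp only [lucV, smul_mul_smul_comm, mul_one, sub_smul]

lemma lucas_relation {a d : R} {x : B} (hx : x * x - a • x + d • (1 : B) = 0) (j : ℕ) :
    x ^ j * x ^ j - lucV a d j • x ^ j + (d ^ j) • (1 : B) = 0 := by
  set y : B := a • (1 : B) - x with hy
  have hxy : x * y = d • (1 : B) := by
    rw [hy, mul_sub, mul_smul_comm, mul_one]
    have h := hx
    rw [sub_add_eq_add_sub, sub_eq_zero] at h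
    rw [← h]; abel
  have hyx : y * x = d • (1 : B) := by
    rw [hy, sub_mul, smul_mul_assoc, one_mul]
    have h := hx
    rw [sub_add_eq_add_sub, sub_eq_zero] at h
    rw [← h]; abel
  have hcomm : Commute x y := hxy.trans hyx.symm
  have hsum := pow_add_pow_conj hx j
  have hprod : x ^ j * y ^ j = (d ^ j) • (1 : B) := by
    rw [← hcomm.mul_pow, hxy, smul_pow, one_pow]
  have : lucV a d j • x ^ j = x ^ j * (x ^ j + y ^ j) := by
    rw [hsum, mul_smul_comm, mul_one]
  rw [this, mul_add, hprod]
  abel

end Lucas

end Fermat.Agent.S30.H56
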